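import Fermat.Agent.WeightLevel.Orbit
import Fermat.Agent.Carayol.Hasse.HassePoly

/-!
# The exponent at a zero of Deuring's polynomial

A function whose `M`-th power reduces to a constant times the `w`-th power of Deuring's polynomial
shows at a simple zero `r`, in `k⟦λ - r⟧`, that `M` divides `w`.
-/

set_option autoImplicit false
set_option linter.unusedSectionVars false
set_option linter.style.haveILetI false
set_option synthInstance.maxHeartbeats 100000

noncomputable section

namespace FA.WeightLevel

open UpperHalfPlane hiding I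
open CongruenceSubgroup HahnSeries ModularCurve FA.Level FA.ModField FA.Mazur.Wp FA.Carayol
open Polynomial (X)
open scoped MatrixGroups Classical

variable {O : ValuationSubring ℂ} {ℓ N : ℕ} [NeZero N] {h : ℕ}
variable (hN : N = 2 * h) (hp : GoodPrime O ℓ N)
include hp

/-- **The exponent.** -/
theorem dvd_of_redFun_pow (hh : 2 ≤ h) {m : ℕ} (hm : ℓ = 2 * m + 1) {f : intFun O N} {M w : ℕ}
    {c : resField O} (hc : c ≠ 0)
    (hf : redFun O N f ^ M =
      HahnSeries.C c * (hPoly m (resField O)).eval₂ HahnSeries.C (redFun O N (lamB hN hp)) ^ w) :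
    M ∣ w := by
  have : IsAlgClosed (resField O) := FA.CurveRed.isAlgClosed_residueField O
  have := Fact.mk hp.prime
  have := FA.KlingenIntegral.charP_residue hp.prime hp.small
  have hm0 : m ≠ 0 := fun e => by have := hp.five; omega
  have hHdeg : (hPoly m (resField O)).natDegree = m := hPoly_natDegree (q := ℓ) hm
  have hHne : hPoly m (resField O) ≠ 0 := fun e => hm0 (by
    rw [← hHdeg, e, Polynomial.natDegree_zero])
  obtain ⟨r, hr⟩ := IsAlgClosed.exists_root (hPoly m (resField O)) (by
    rw [Polynomial.degree_eq_natDegree hHne, hHdeg]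
    exact_mod_cast hm0)
  have hr0 : r ≠ 0 := fun e => by rw [e, Polynomial.IsRoot.def, eval_zero_hPoly] at hr; simp at hr
  have hr1 : r ≠ 1 := fun e => eval_one_hPoly_ne_zero (q := ℓ) hm (e ▸ hr)
  obtain ⟨G, hG⟩ : X - Polynomial.C r ∣ hPoly m (resField O) := Polynomial.dvd_iff_isRoot.2 hr
  have hGr : G.eval r ≠ 0 := fun e => by
    obtain ⟨G', hG'⟩ := Polynomial.dvd_iff_isRoot.2 (show G.IsRoot r from e)
    have hcount := hPoly_roots_simple (q := ℓ) (k := resField O) hm r
    rw [Polynomial.count_roots] at hcount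
    have : 2 ≤ (hPoly m (resField O)).rootMultiplicity r :=
      (Polynomial.le_rootMultiplicity_iff hHne).2 ⟨G', by rw [hG, hG']; ring⟩
    omega
  obtain ⟨ψ, hred, hcB, hlam, hfix⟩ := exists_map hN hp hr0 hr1
  have htop : (incl O).range.comap ψ = ⊤ := eq_top_of_mem hN hp hh _ (fun b hb => hfix b hb)
    fun v hv => xB_mem_range hN hp hfix v hv
  obtain ⟨y, hy⟩ : ψ f ∈ (incl O).range := (eq_top_iff.1 htop (Subring.mem_top f) :)
  obtain ⟨x, hx⟩ := IsLocalRing.residue_surjective c
  obtain ⟨G₀, hG₀⟩ : ∃ G₀ : intFun O N,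
      G₀ = cB O N x * (hPoly m O).eval₂ (cB O N) (lamB hN hp) ^ w := ⟨_, rfl⟩
  have e1 : redFun O N (f ^ M) = redFun O N G₀ := by
    rw [map_pow, hf, hG₀, map_mul, map_pow, redFun_cB, hx, Polynomial.hom_eval₂,
      ← hPoly_map (IsLocalRing.residue O), Polynomial.eval₂_map]
    congr 3
    exact RingHom.ext fun a => (redFun_cB a).symm
  have e2 : y ^ M = PowerSeries.C c *
      ((hPoly m (resField O)).eval₂ PowerSeries.C (PowerSeries.C r + PowerSeries.X)) ^ w := by
    apply incl_injective
    rw [map_pow, hy, ← map_pow, hred _ _ e1, hG₀, map_mul, map_pow, hcB, hx, Polynomial.hom_eval₂,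
      hlam, map_mul, map_pow, ← hPoly_map (IsLocalRing.residue O), Polynomial.eval₂_map,
      Polynomial.hom_eval₂]
    congr 3
    exact RingHom.ext fun a => hcB a
  rw [hG, Polynomial.eval₂_mul, Polynomial.eval₂_sub, Polynomial.eval₂_X, Polynomial.eval₂_C,
    add_sub_cancel_left, mul_pow] at e2
  have hord := congrArg PowerSeries.order e2
  have hGu : PowerSeries.order (G.eval₂ PowerSeries.C (PowerSeries.C r + PowerSeries.X)) = 0 :=
    PowerSeries.order_zero_of_unit (PowerSeries.isUnit_iff_constantCoeff.2 (by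
      rw [Polynomial.hom_eval₂]
      simpa [Polynomial.eval₂_eq_eval_map] using hGr))
  rw [PowerSeries.order_pow, PowerSeries.order_mul, PowerSeries.order_mul, PowerSeries.order_pow,
    PowerSeries.order_pow, hGu, PowerSeries.order_X,
    PowerSeries.order_zero_of_unit ((isUnit_iff_ne_zero.2 hc).map PowerSeries.C), smul_zero,
    zero_add, add_zero, nsmul_one, nsmul_eq_mul] at hord
  cases hy0 : PowerSeries.order y with
  | top =>
    rw [hy0] at hord
    rcases Nat.eq_zero_or_pos M with rfl | hM
    · simp at hord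
      exact ⟨0, by simpa using (Nat.cast_eq_zero (R := ℕ∞)).1 hord.symm⟩
    · rw [ENat.mul_top (by exact_mod_cast hM.ne')] at hord
      exact absurd hord (ENat.top_ne_natCast w)
  | coe n =>
    rw [hy0, ← Nat.cast_mul, Nat.cast_inj] at hord
    exact ⟨n, hord.symm⟩

end FA.WeightLevel

end
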