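import Fermat.Agent.WeightLevel.Hasse
import Fermat.Agent.WeightLevel.Exponent

/-!
# Serre's constant term theorem at level `N`

Let `ℓ ≥ 5` be prime to `N`. If a form of weight `w` on a group containing `Γ(N)` has coefficients
of positive index smaller than the largest constant at every cusp, then `ℓ - 1` divides `2 w`, and `w` if this
is even: a power divided by a power of `δ` reduces at infinity to a constant times a power of the Hasse invariant.
-/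

set_option autoImplicit false
set_option linter.unusedSectionVars false
set_option linter.style.haveILetI false
set_option synthInstance.maxHeartbeats 100000

noncomputable section

namespace FA.WeightLevel

open UpperHalfPlane hiding I
open CongruenceSubgroup HahnSeries ModularCurve FA.Level FA.ModField FA.Mazur.Wp FA.Carayol
open FA.Eis (HasQ)
open FA.KlingenRay (IsMF conjFun)
open scoped MatrixGroups Manifold ModularForm Classical

variable {O : ValuationSubring ℂ} {ℓ N : ℕ}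

/-- A series in `q ^ (1 / N)` as one in `q ^ (1 / (d N))`. -/
theorem hasQ_expand_mul {d : ℕ} (hd : d ≠ 0) {g : ℍ → ℂ} {A : PowerSeries ℂ}
    (hA : HasQ (N : ℝ) g A) : HasQ ((d * N : ℕ) : ℝ) g (PowerSeries.expand d hd A) := fun τ => by
  rw [← Function.Injective.hasSum_iff (g := fun j : ℕ => d * j)
    (mul_right_injective₀ hd) fun n hn => by
      rw [PowerSeries.coeff_expand_of_not_dvd d hd _ fun ⟨j, hj⟩ => hn ⟨j, hj.symm⟩, zero_mul]]
  refine (hA τ).congr_fun fun j => ?_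
  rw [Function.comp_apply, PowerSeries.coeff_expand_mul]
  congr 1
  rw [Function.Periodic.qParam, Function.Periodic.qParam, ← Complex.exp_nat_mul,
    ← Complex.exp_nat_mul]
  congr 1
  have : (d : ℂ) ≠ 0 := Nat.cast_ne_zero.2 hd
  rcases eq_or_ne N 0 with rfl | hN
  · simp
  have : (N : ℂ) ≠ 0 := Nat.cast_ne_zero.2 hN
  push_cast
  field_simp

variable [NeZero N]

/-- A series with small coefficients of positive index reduces to its constant. -/
theorem redL_const {A : PowerSeries ℂ} (hA : ofPowerSeries ℤ ℂ A ∈ intL O) (c : O)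
    (hc : (c : ℂ) = PowerSeries.coeff 0 A)
    (hsmall : ∀ n, n ≠ 0 → O.valuation (PowerSeries.coeff n A) < 1) :
    redL O ⟨_, hA⟩ = HahnSeries.C (IsLocalRing.residue O c) := by
  ext i
  rcases lt_trichotomy i 0 with hi | rfl | hi
  · rw [coeff_redL _ i 0 (by simp [ModularCurve.ofPowerSeries_coeff_of_neg _ hi]), map_zero,
      HahnSeries.C_apply, coeff_single_of_ne hi.ne]
  · rw [coeff_redL _ _ c (by
      rw [hc]
      exact (HahnSeries.ofPowerSeries_apply_coeff A 0).symm), HahnSeries.C_apply, coeff_single_same]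
  · obtain ⟨M, rfl⟩ := Int.eq_ofNat_of_zero_le hi.le
    have hv := hsmall M (by omega)
    rw [coeff_redL _ _ ⟨_, (O.valuation_le_one_iff _).1 hv.le⟩
        (HahnSeries.ofPowerSeries_apply_coeff A M).symm,
      HahnSeries.C_apply, coeff_single_of_ne hi.ne', FA.KlingenIntegral.residue_eq_zero]
    exact hv

theorem Gamma_mul_le (d : ℕ) : Gamma (d * N) ≤ Gamma N := fun g hg => by
  rw [Gamma_mem] at hg ⊢
  have h := fun (x : ℤ) => map_intCast (ZMod.castHom (Dvd.intro_left d rfl) (ZMod N)) x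
  refine ⟨?_, ?_, ?_, ?_⟩
  · rw [← h, hg.1, map_one]
  · rw [← h, hg.2.1, map_zero]
  · rw [← h, hg.2.2.1, map_zero]
  · rw [← h, hg.2.2.2, map_one]

/-- The ratio `F ^ e / δ ^ v`, for `e w = 2 v`, is an integral function of level `4 N`. -/
theorem exists_weight_zero {h : ℕ} (hNh : 4 * N = 2 * h) (hp : GoodPrime O ℓ (4 * N)) {w e v : ℕ}
    (hev : e * w = 2 * v) {F : ℍ → ℂ} (hinv : ∀ g ∈ Gamma N, F ∣[(w : ℤ)] g = F) (T : SL(2, ℤ) → PowerSeries ℂ)
    (hT : ∀ B, HasQ (N : ℝ) (F ∣[(w : ℤ)] B) (T B))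
    (hle : ∀ B n, O.valuation (PowerSeries.coeff n (T B)) ≤ 1) :
    ∃ f : intFun O (4 * N), ∃ S : intL O,
      (S : LaurentSeries ℂ) = ofPowerSeries ℤ ℂ (PowerSeries.expand 4 (by norm_num) (T 1)) ∧
      redFun O (4 * N) f * redL O (deltaI hNh hp) ^ v = redL O S ^ e := by
  obtain ⟨S, hS⟩ : ∃ S : SL(2, ℤ) → LaurentSeries ℂ,
      ∀ B, S B = ofPowerSeries ℤ ℂ (PowerSeries.expand 4 (by norm_num) (T B)) := ⟨_, fun _ => rfl⟩
  have hSe : ∀ B, HasExp (qp (4 * N)) (F ∣[(w : ℤ)] B) (S B) := fun B => by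
    rw [hS]
    exact hasExp_of_hasQ (hasQ_expand_mul (by norm_num) (hT B))
  have hSmem : ∀ B, S B ∈ intL O := fun B => mem_intL.2 fun i => by
    rw [hS]
    rcases lt_or_ge i 0 with hi | hi
    · rw [ModularCurve.ofPowerSeries_coeff_of_neg _ hi, map_zero]
      exact zero_le
    obtain ⟨M, rfl⟩ := Int.eq_ofNat_of_zero_le hi
    rw [HahnSeries.ofPowerSeries_apply_coeff, PowerSeries.coeff_expand]
    split_ifs
    · exact hle B _
    · rw [map_zero]
      exact zero_le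
  obtain ⟨D, hD⟩ : ∃ D : SL(2, ℤ) → LaurentSeries ℂ,
      ∀ g, D g = xS (4 * N) (vmul (tA h) g) - xS (4 * N) (vmul (tB h) g) := ⟨_, fun _ => rfl⟩
  obtain ⟨δ, hδ⟩ : ∃ δ : SL(2, ℤ) → ℍ → ℂ, ∀ g τ, δ g τ =
      xVal (4 * N) (vmul (tA h) g).1 (vmul (tA h) g).2 τ -
        xVal (4 * N) (vmul (tB h) g).1 (vmul (tB h) g).2 τ := ⟨_, fun _ _ => rfl⟩
  have hδne : ∀ g τ, δ g τ ≠ 0 := fun g τ => hδ g τ ▸ sub_ne_zero.2
    (xVal_ne ((isVec_tA hNh).vmul g) ((isVec_tB hNh).vmul g) ((apart_ab hNh).vmul g) τ)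
  have hDu : ∀ g, IntUnit O (D g) := fun g => hD g ▸
    hp.unit ((isVec_tA hNh).vmul g) ((isVec_tB hNh).vmul g) ((apart_ab hNh).vmul g)
  obtain ⟨Φ, hΦ⟩ : ∃ Φ : ℍ → ℂ, ∀ τ, Φ τ = F τ ^ e * (δ 1 τ ^ v)⁻¹ := ⟨_, fun _ => rfl⟩
  have hmove : ∀ g τ, Φ (g • τ) = (F ∣[(w : ℤ)] g) τ ^ e * (δ g τ ^ v)⁻¹ := fun g τ => by
    have hd := FA.Eis.den_ne_zero g τ
    have e1 : δ 1 (g • τ) = FA.Eis.den g τ ^ 2 * δ g τ := by
      rw [hδ, hδ, vmul_one, vmul_one, mul_sub, xVal_smul, xVal_smul]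
      rfl
    rw [hΦ, e1, FA.Eis.slash_sl_apply, zpow_neg, zpow_natCast, mul_pow, mul_inv, mul_pow, inv_pow,
      ← pow_mul, ← pow_mul, mul_comm w e, hev]
    ring
  have hexp : ∀ g, HasExp (qp (4 * N)) (fun τ => Φ (g • τ)) (S g ^ e * (D g ^ v)⁻¹) := fun g => by
    have hDe : HasExp (qp (4 * N)) (δ g) (D g) := by
      rw [hD]
      exact ((hasExp_xS ((isVec_tA hNh).vmul g)).sub
        (hasExp_xS ((isVec_tB hNh).vmul g))).congr (funext fun τ => (hδ g τ).symm)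
    refine (((hSe g).pow (qp_ne_zero _) e).mul (qp_ne_zero _)
      (exp_inv (hDe.pow (qp_ne_zero _) v) fun τ => ?_)).congr (funext fun τ => ?_)
    · rw [Pi.pow_apply]
      exact pow_ne_zero _ (hδne g τ)
    · rw [hmove]
      rfl
  have hmd : MDiff Φ := by
    have h1 := hexp 1
    simp only [one_smul] at h1
    exact mdiff_of_exp h1
  obtain ⟨r, hr⟩ : ∃ r : rN (4 * N) (⊤ : Subfield ℂ), ∀ z, ((r : holSub) : ℍ → ℂ) z = Φ z :=
    ⟨⟨⟨_, hmd⟩, mem_rN_top (fun γ hγ z => by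
      show Φ (γ • z) = Φ z
      rw [hmove, hinv γ (Gamma_mul_le 4 hγ), hΦ, hδ, hδ, vmul_one, vmul_one,
        xVal_vmul_gamma _ hγ, xVal_vmul_gamma _ hγ]) fun g => ⟨_, hexp g⟩⟩, fun _ => rfl⟩
  have hcusp : ∀ g, cuspSer g r = S g ^ e * (D g ^ v)⁻¹ := fun g =>
    cuspSer_eq ((hexp g).congr (funext fun z => (hr _).symm))
  have hpow : ∀ g, (D g ^ v)⁻¹ ∈ intL O := fun g => by
    rw [← inv_pow]
    exact Subring.pow_mem _ (hDu g).inv.mem v
  obtain ⟨f, hf⟩ : ∃ f : intFun O (4 * N), (f : rN (4 * N) (⊤ : Subfield ℂ)) = r :=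
    ⟨⟨r, mem_intFun.2 fun g => by
      rw [hcusp]
      exact Subring.mul_mem _ (Subring.pow_mem _ (hSmem g) e) (hpow g)⟩, rfl⟩
  refine ⟨f, ⟨S 1, hSmem 1⟩, hS 1, ?_⟩
  show redL O ⟨cuspSer 1 (f : rN (4 * N) (⊤ : Subfield ℂ)), _⟩ * _ = _
  rw [← map_pow, ← map_pow, ← map_mul]
  refine congrArg (redL O) (Subtype.ext ?_)
  have eD : ((deltaI hNh hp : intL O) : LaurentSeries ℂ) = D 1 := by
    rw [hD, vmul_one, vmul_one]
    rfl
  rw [Subring.coe_mul, SubmonoidClass.coe_pow, SubmonoidClass.coe_pow, eD]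
  show cuspSer 1 (f : rN (4 * N) (⊤ : Subfield ℂ)) * D 1 ^ v = S 1 ^ e
  rw [hf, hcusp, mul_assoc, inv_mul_cancel₀ (pow_ne_zero _ (hDu 1).ne_zero), mul_one]

/-- **A form congruent to a unit at infinity has weight a multiple of `(ℓ - 1) / 2`.** -/
theorem dvd_of_unit_constant (hp : ℓ.Prime) (hℓ : O.valuation (ℓ : ℂ) < 1) (h5 : 5 ≤ ℓ)
    (hN : ¬ℓ ∣ N) {w : ℕ} {F : ℍ → ℂ} (hinv : ∀ g ∈ Gamma N, F ∣[(w : ℤ)] g = F)
    (T : SL(2, ℤ) → PowerSeries ℂ) (hT : ∀ B, HasQ (N : ℝ) (F ∣[(w : ℤ)] B) (T B))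
    (hle : ∀ B n, O.valuation (PowerSeries.coeff n (T B)) ≤ 1)
    (hsmall : ∀ n, n ≠ 0 → O.valuation (PowerSeries.coeff n (T 1)) < 1)
    (hone : O.valuation (PowerSeries.coeff 0 (T 1)) = 1) :
    (ℓ - 1) ∣ 2 * w ∧ (Even w → (ℓ - 1) ∣ w) := by
  obtain ⟨m, hm⟩ := hp.odd_of_ne_two (by omega)
  have hp' : GoodPrime O ℓ (4 * N) := ⟨hp, hℓ, h5, fun hd => by
    rcases hp.dvd_mul.1 hd with hd' | hd'
    · have := Nat.le_of_dvd (by norm_num) hd'
      omega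
    · exact hN hd'⟩
  obtain ⟨h, hh⟩ : ∃ h, h = 2 * N := ⟨_, rfl⟩
  have hNh : 4 * N = 2 * h := by omega
  have hh2 : 2 ≤ h := by
    have := NeZero.pos N
    omega
  obtain ⟨c, hc⟩ : ∃ c : O, (c : ℂ) = PowerSeries.coeff 0 (T 1) :=
    ⟨⟨_, (O.valuation_le_one_iff _).1 (hle 1 0)⟩, rfl⟩
  obtain ⟨u, hu⟩ : ∃ u, u = IsLocalRing.residue O c := ⟨_, rfl⟩
  have hu0 : u ≠ 0 := fun e => by
    rw [hu, FA.KlingenIntegral.residue_eq_zero, hc, hone] at e
    exact lt_irrefl _ e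
  have hH := hasse_infty hNh hp' hm
  have main : ∀ e v, e * w = 2 * v → m ∣ v := fun e v hev => by
    obtain ⟨f, S, hS, hf⟩ := exists_weight_zero hNh hp' hev hinv T hT hle
    have hSr : redL O S = HahnSeries.C u := by
      have hmem : ofPowerSeries ℤ ℂ (PowerSeries.expand 4 (by norm_num) (T 1)) ∈ intL O := hS ▸ S.2
      rw [show S = ⟨_, hmem⟩ from Subtype.ext hS, hu]
      refine redL_const hmem c (by rw [hc, PowerSeries.coeff_expand]; simp) fun n hn => ?_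
      rw [PowerSeries.coeff_expand]
      split_ifs with hd
      · obtain ⟨j, rfl⟩ := hd
        exact hsmall _ (by omega)
      · rw [map_zero]
        exact zero_lt_one
    rw [hSr] at hf
    have key : redFun O (4 * N) f ^ m = HahnSeries.C (u ^ (e * m) * ((-1) ^ m) ^ v) *
        (hPoly m (resField O)).eval₂ HahnSeries.C (redFun O (4 * N) (lamB hNh hp')) ^ v := by
      rw [map_mul, map_pow, map_pow, map_pow, map_neg, map_one]
      generalize hP :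
        (hPoly m (resField O)).eval₂ HahnSeries.C (redFun O (4 * N) (lamB hNh hp')) = P at hH ⊢
      generalize redL O (deltaI hNh hp') = d at hH hf
      generalize redFun O (4 * N) f = x at hf ⊢
      generalize (HahnSeries.C u : LaurentSeries (resField O)) = z at hf ⊢
      calc x ^ m = x ^ m * (d ^ m * ((-1) ^ m * P)) ^ v := by rw [hH, one_pow, mul_one]
        _ = (x * d ^ v) ^ m * (((-1) ^ m) ^ v * P ^ v) := by
            rw [mul_pow, mul_pow, mul_pow, ← pow_mul, ← pow_mul, mul_comm m v]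
            ring
        _ = _ := by
            rw [hf, ← pow_mul]
            ring
    exact dvd_of_redFun_pow hNh hp' hh2 hm (mul_ne_zero (pow_ne_zero _ hu0)
      (pow_ne_zero _ (pow_ne_zero _ (neg_ne_zero.2 one_ne_zero)))) key
  rw [show ℓ - 1 = 2 * m by omega]
  refine ⟨mul_dvd_mul_left 2 (main 2 w rfl), fun ⟨v, hv⟩ => ?_⟩
  rw [show w = 2 * v by omega]
  exact mul_dvd_mul_left 2 (main 1 v (by omega))

variable {Γ : Subgroup SL(2, ℤ)} {w : ℕ} {f : ℍ → ℂ}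

/-- **The constant terms are bounded by the other coefficients** on a group containing `Γ(N)`, in
every weight `w` with `ℓ - 1 ∤ 2 w`, or even with `ℓ - 1 ∤ w`. -/
theorem constant_le_level (hp : ℓ.Prime) (hℓ : O.valuation (ℓ : ℂ) < 1) (h5 : 5 ≤ ℓ)
    (hN : ¬ℓ ∣ N) (hw : ¬(ℓ - 1) ∣ 2 * w ∨ (Even w ∧ ¬(ℓ - 1) ∣ w)) (hΓ : Gamma N ≤ Γ) (hf : IsMF Γ w f)
    (S : SL(2, ℤ) → PowerSeries ℂ) (hS : ∀ A, HasQ (N : ℝ) (f ∣[(w : ℤ)] A) (S A))
    {γ : O.ValueGroup} (hγ : ∀ B n, n ≠ 0 → O.valuation (PowerSeries.coeff n (S B)) ≤ γ)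
    (A : SL(2, ℤ)) : O.valuation (PowerSeries.coeff 0 (S A)) ≤ γ := by
  have : Γ.FiniteIndex := Subgroup.finiteIndex_of_le hΓ
  have hN0 : (0 : ℝ) < (N : ℝ) := Nat.cast_pos.2 (NeZero.pos N)
  by_contra hlt
  rw [not_le] at hlt
  obtain ⟨i₀, hi₀⟩ := Finite.exists_max fun i : SL(2, ℤ) ⧸ Γ =>
    O.valuation (PowerSeries.coeff 0 (S (Quotient.out i)⁻¹))
  obtain ⟨A₀, hA₀⟩ : ∃ A₀ : SL(2, ℤ), A₀ = (Quotient.out i₀)⁻¹ := ⟨_, rfl⟩
  obtain ⟨c, hc⟩ : ∃ c, c = PowerSeries.coeff 0 (S A₀) := ⟨_, rfl⟩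
  have hmax : ∀ B, O.valuation (PowerSeries.coeff 0 (S B)) ≤ O.valuation c := fun B => by
    have e : S B = S (Quotient.out (QuotientGroup.mk B⁻¹ : SL(2, ℤ) ⧸ Γ))⁻¹ := by
      refine (hS B).unique hN0 ?_
      have := hS (Quotient.out (QuotientGroup.mk B⁻¹ : SL(2, ℤ) ⧸ Γ))⁻¹
      rwa [← conjFun, hf.conjFun_mk, inv_inv] at this
    rw [e, hc, hA₀]
    exact hi₀ _
  have hγc : γ < O.valuation c := hlt.trans_le (hmax A)
  have hv0 : 0 < O.valuation c := zero_le.trans_lt hγc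
  suffices key : (ℓ - 1) ∣ 2 * w ∧ (Even w → (ℓ - 1) ∣ w) from
    hw.elim (fun h => h key.1) fun h => h.2 (key.2 h.1)
  refine dvd_of_unit_constant (O := O) hp hℓ h5 hN (w := w)
    (F := c⁻¹ • (f ∣[(w : ℤ)] A₀)) (fun g hg => ?_) (fun B => c⁻¹ • S (A₀ * B))
    (fun B => ?_) (fun B n => ?_) (fun n hn => ?_) ?_
  · have hgA : A₀ * g * A₀⁻¹ ∈ Γ := hΓ ((Gamma_normal N).conj_mem g hg A₀)
    rw [ModularForm.SL_smul_slash, ← SlashAction.slash_mul,
      show A₀ * g = A₀ * g * A₀⁻¹ * A₀ by group, SlashAction.slash_mul, hf.inv _ hgA]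
  · rw [ModularForm.SL_smul_slash, ← SlashAction.slash_mul]
    exact (hS _).smul _
  · rw [PowerSeries.coeff_smul, smul_eq_mul, map_mul, map_inv₀, inv_mul_le_iff₀ hv0, mul_one]
    rcases eq_or_ne n 0 with rfl | hn
    · exact hmax _
    · exact (hγ _ n hn).trans hγc.le
  · rw [PowerSeries.coeff_smul, smul_eq_mul, map_mul, map_inv₀, inv_mul_lt_iff₀ hv0, mul_one, mul_one]
    exact (hγ _ n hn).trans_lt hγc
  · rw [PowerSeries.coeff_smul, smul_eq_mul, map_mul, map_inv₀, mul_one, ← hc,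
      inv_mul_cancel₀ hv0.ne']

variable (ℓ) in
/-- The weights in which the constants are bounded by the other coefficients. -/
def Admissible (w : ℕ) : Prop := w + 2 ≤ ℓ ∨ ¬(ℓ - 1) ∣ 2 * w ∨ (Even w ∧ ¬(ℓ - 1) ∣ w)

/-- **The constant terms in an admissible weight.** -/
theorem constant_le_adm (hp : ℓ.Prime) (hℓ : O.valuation (ℓ : ℂ) < 1) (h5 : 5 ≤ ℓ)
    (hN : ¬ℓ ∣ N) (hw0 : w ≠ 0) (hw : Admissible ℓ w) (hΓ : Gamma N ≤ Γ) (hf : IsMF Γ w f)
    (S : SL(2, ℤ) → PowerSeries ℂ) (hS : ∀ A, HasQ (N : ℝ) (f ∣[(w : ℤ)] A) (S A))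
    {γ : O.ValueGroup} (hγ : ∀ B n, n ≠ 0 → O.valuation (PowerSeries.coeff n (S B)) ≤ γ)
    (A : SL(2, ℤ)) : O.valuation (PowerSeries.coeff 0 (S A)) ≤ γ := by
  rcases hw with hw | hw
  · have : Γ.FiniteIndex := Subgroup.finiteIndex_of_le hΓ
    exact FA.KlingenIntegral.constant_le hp hℓ h5 hw0 hw hf hN S hS hγ A
  · exact constant_le_level hp hℓ h5 hN hw hΓ hf S hS hγ A

theorem Gamma_le_one : Gamma N ≤ Gamma1 N := fun g hg => by
  rw [Gamma_mem] at hg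
  exact (Gamma1_mem N g).2 ⟨hg.1, hg.2.2.2, hg.2.2.1⟩

end FA.WeightLevel

end
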