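import Fermat.Agent.KlingenIntegral.Core
import Mathlib.NumberTheory.Basic

/-!
# Congruences modulo `ℓ ^ (a + 1)` between powers

For `ℓ`-integral rationals `b` the powers `b ^ j` and `b ^ j'` agree modulo `ℓ ^ (a + 1)` if
`a < j ≤ j'` and `(ℓ - 1) ℓ ^ a` divides `j' - j`, and `E_(ℓ-1) ^ (ℓ ^ a t)` is a level one form
congruent to `1` to the same modulus.
-/

set_option autoImplicit false
set_option linter.unusedSectionVars false
set_option linter.style.haveILetI false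

noncomputable section

namespace FA.WeightLevel

open UpperHalfPlane hiding I
open FA.Eis (HasQ)
open FA.KlingenIntegral (val_natCast_eq_one val_natCast_le val_intCast_le)
open scoped MatrixGroups ModularForm ArithmeticFunction.sigma

variable {ℓ : ℕ}

/-- Euler's congruence. -/
theorem dvd_pow_sub_one (hp : ℓ.Prime) {z : ℤ} (hz : ¬(ℓ : ℤ) ∣ z) (a t : ℕ) :
    (ℓ : ℤ) ^ (a + 1) ∣ z ^ ((ℓ - 1) * ℓ ^ a * t) - 1 := by
  have hcop : IsCoprime z (ℓ : ℤ) :=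
    ((Nat.prime_iff_prime_int.1 hp).coprime_iff_not_dvd.2 hz).symm
  have h1 : (ℓ : ℤ) ∣ z ^ (ℓ - 1) - 1 :=
    Int.modEq_iff_dvd.1 (Int.ModEq.pow_card_sub_one_eq_one hp hcop).symm
  have h2 := dvd_sub_pow_of_dvd_sub h1 a
  rw [one_pow, ← pow_mul] at h2
  have h3 := h2.trans (sub_dvd_pow_sub_pow (z ^ ((ℓ - 1) * ℓ ^ a)) 1 t)
  rwa [one_pow, ← pow_mul] at h3

theorem dvd_pow_sub_pow (hp : ℓ.Prime) (z : ℤ) {a j j' : ℕ} (hj : a < j) (hjj : j ≤ j')
    (hd : (ℓ - 1) * ℓ ^ a ∣ j' - j) : (ℓ : ℤ) ^ (a + 1) ∣ z ^ j' - z ^ j := by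
  by_cases hz : (ℓ : ℤ) ∣ z
  · exact dvd_sub ((pow_dvd_pow_of_dvd hz _).trans (pow_dvd_pow z (by omega)))
      ((pow_dvd_pow_of_dvd hz _).trans (pow_dvd_pow z (by omega)))
  · obtain ⟨t, ht⟩ := hd
    rw [show j' = (j' - j) + j by omega, ht, pow_add z, ← sub_one_mul]
    exact (dvd_pow_sub_one hp hz a t).mul_right _

variable {O : ValuationSubring ℂ}

theorem val_intCast_of_dvd {z : ℤ} {a : ℕ} (h : (ℓ : ℤ) ^ (a + 1) ∣ z) :
    O.valuation (z : ℂ) ≤ O.valuation (ℓ : ℂ) ^ (a + 1) := by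
  obtain ⟨w, rfl⟩ := h
  push_cast
  rw [map_mul, map_pow]
  exact mul_le_of_le_one_right' (val_intCast_le w)

/-- **Congruent powers of an integral rational.** -/
theorem val_pow_sub_pow (hp : ℓ.Prime) (hℓ : O.valuation (ℓ : ℂ) < 1) {b : ℚ}
    (hb : O.valuation (b : ℂ) ≤ 1) {a j j' : ℕ} (hj : a < j) (hjj : j ≤ j')
    (hd : (ℓ - 1) * ℓ ^ a ∣ j' - j) :
    O.valuation ((b : ℂ) ^ j' - (b : ℂ) ^ j) ≤ O.valuation (ℓ : ℂ) ^ (a + 1) := by
  have hden : ¬ℓ ∣ b.den := fun hdv => by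
    have hnum : ¬ℓ ∣ b.num.natAbs := fun h =>
      hp.not_dvd_one (b.reduced.gcd_eq_one ▸ Nat.dvd_gcd h hdv)
    have e : (b : ℂ) * (b.den : ℂ) = (b.num : ℂ) := by exact_mod_cast Rat.mul_den_eq_num b
    have h1 : O.valuation (b.num : ℂ) = 1 := by
      rcases Int.natAbs_eq b.num with h | h <;> rw [h] <;> simp only [Int.cast_neg, Int.cast_natCast,
        Valuation.map_neg, val_natCast_eq_one hp hℓ hnum]
    have h2 : O.valuation (b.den : ℂ) < 1 := by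
      obtain ⟨w, hw⟩ := hdv
      rw [hw, Nat.cast_mul, map_mul]
      exact (mul_le_of_le_one_right' (val_natCast_le w)).trans_lt hℓ
    rw [← e, map_mul] at h1
    exact absurd h1 ((mul_le_of_le_one_left' hb).trans_lt h2).ne
  have hdv : O.valuation (b.den : ℂ) = 1 := val_natCast_eq_one hp hℓ hden
  have hdvd : (ℓ : ℤ) ^ (a + 1) ∣ b.num ^ j' - b.num ^ j * (b.den : ℤ) ^ (j' - j) := by
    obtain ⟨t, ht⟩ := hd
    have h1 := dvd_pow_sub_pow hp b.num hj hjj ⟨t, ht⟩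
    have h2 := (dvd_pow_sub_one hp (z := (b.den : ℤ)) (fun h => hden (Int.natCast_dvd_natCast.1 h))
      a t).mul_left (b.num ^ j)
    rw [← ht, mul_sub, mul_one] at h2
    have h3 := dvd_sub h1 h2
    rwa [sub_sub_sub_cancel_right] at h3
  have e : ((b : ℂ) ^ j' - (b : ℂ) ^ j) * (b.den : ℂ) ^ j' =
      ((b.num ^ j' - b.num ^ j * (b.den : ℤ) ^ (j' - j) : ℤ) : ℂ) := by
    have hnum : (b : ℂ) * (b.den : ℂ) = (b.num : ℂ) := by exact_mod_cast Rat.mul_den_eq_num b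
    obtain ⟨d, rfl⟩ : ∃ d, j' = j + d := ⟨j' - j, by omega⟩
    rw [Nat.add_sub_cancel_left]
    push_cast
    rw [← hnum]
    ring
  have h := val_intCast_of_dvd (O := O) hdvd
  rwa [← e, map_mul, map_pow _ (b.den : ℂ), hdv, one_pow, mul_one] at h

/-- **`E_(ℓ-1)` is congruent to one modulo `ℓ`.** -/
theorem exists_series_one (hp : ℓ.Prime) (hℓ : O.valuation (ℓ : ℂ) < 1) (h5 : 5 ≤ ℓ)
    (hk : 3 ≤ ℓ - 1) : ∃ E : PowerSeries O, PowerSeries.constantCoeff E = 1 ∧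
      (ℓ : PowerSeries O) ∣ E - 1 ∧ HasQ 1 (ModularForm.E hk) (E.map O.subtype) := by
  have := Fact.mk hp
  obtain ⟨B, D, hBD, hD, hB⟩ := FA.HasseEis.exists_bernoulli (p := ℓ) h5
  have hev : Even (ℓ - 1) := hp.even_sub_one (by omega)
  have hB' : ¬(ℓ : ℤ) ∣ B := fun h => hD (by
    rw [← ZMod.intCast_zmod_eq_zero_iff_dvd, hB, neg_eq_zero] at h
    exact h)
  have hBv : O.valuation (B : ℂ) = 1 := by
    rcases Int.natAbs_eq B with h | h <;> rw [h] <;> simp only [Int.cast_neg, Int.cast_natCast,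
      Valuation.map_neg] <;>
      exact val_natCast_eq_one hp hℓ fun hd => hB' (Int.natCast_dvd.2 hd)
  have hB0 : (B : ℂ) ≠ 0 := fun e => by rw [e, map_zero] at hBv; exact zero_ne_one hBv
  have hb : (ℓ : ℂ) * (bernoulli (ℓ - 1) : ℂ) * (D : ℂ) = (B : ℂ) := by exact_mod_cast hBD
  obtain ⟨x, hx⟩ : ∃ x : ℕ → ℂ, ∀ m, x m =
      -(2 * ((ℓ - 1 : ℕ) : ℂ)) * (D : ℂ) * (σ (ℓ - 1 - 1) m : ℕ) * (B : ℂ)⁻¹ :=
    ⟨_, fun _ => rfl⟩
  have hxv : ∀ m, x m ∈ O := fun m => (O.valuation_le_one_iff _).1 (by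
    rw [hx, map_mul, map_inv₀, hBv, inv_one, mul_one, map_mul, map_mul, Valuation.map_neg, map_mul,
      show (2 : ℂ) = ((2 : ℕ) : ℂ) by norm_num]
    exact mul_le_one' (mul_le_one' (mul_le_one' (val_natCast_le 2) (val_natCast_le _))
      (val_intCast_le _)) (val_natCast_le _))
  refine ⟨1 + (ℓ : PowerSeries O) * PowerSeries.mk fun m => if m = 0 then 0 else ⟨x m, hxv m⟩,
    by simp, ⟨_, add_sub_cancel_left _ _⟩, ?_⟩
  convert FA.Tau.hasQ_form (ModularForm.E hk) using 1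
  refine PowerSeries.ext fun m => ?_
  rw [PowerSeries.coeff_map, map_add, ← map_natCast PowerSeries.C, PowerSeries.coeff_C_mul,
    PowerSeries.coeff_mk, PowerSeries.coeff_one, map_add, map_mul, map_natCast,
    EisensteinSeries.E_qExpansion_coeff _ hev]
  rcases eq_or_ne m 0 with rfl | hm
  · simp
  · simp only [if_neg hm, map_zero, zero_add]
    show (ℓ : ℂ) * x m = _
    have hber : (bernoulli (ℓ - 1) : ℂ) ≠ 0 := fun e => hB0 (by rw [← hb, e, mul_zero, zero_mul])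
    rw [hx, ← hb]
    have hℓ0 : (ℓ : ℂ) ≠ 0 := Nat.cast_ne_zero.2 hp.ne_zero
    have hD0 : (D : ℂ) ≠ 0 := fun e => hB0 (by rw [← hb, e, mul_zero])
    field_simp

/-- **A level one form congruent to one modulo `ℓ ^ (a + 1)`.** -/
theorem exists_congruent_one (hp : ℓ.Prime) (hℓ : O.valuation (ℓ : ℂ) < 1) (h5 : 5 ≤ ℓ) (a t : ℕ)
    {N : ℕ} (hN : N ≠ 0) :
    ∃ (e : ℍ → ℂ) (U : PowerSeries ℂ), HasQ (N : ℝ) e U ∧ PowerSeries.coeff 0 U = 1 ∧
      (∀ n, n ≠ 0 → O.valuation (PowerSeries.coeff n U) ≤ O.valuation (ℓ : ℂ) ^ (a + 1)) ∧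
      ∀ (A : SL(2, ℤ)) (τ : ℍ),
        e (A • τ) = FA.Eis.den A τ ^ ((ℓ - 1) * ℓ ^ a * t) * e τ := by
  have hk : 3 ≤ ℓ - 1 := by omega
  obtain ⟨E, hE0, hE1, hEq⟩ := exists_series_one (O := O) hp hℓ h5 hk
  obtain ⟨W, hW⟩ : ∃ W, W = E ^ (ℓ ^ a * t) := ⟨_, rfl⟩
  have hW1 : (ℓ : PowerSeries O) ^ (a + 1) ∣ W - 1 := by
    have h2 := (dvd_sub_pow_of_dvd_sub hE1 a).trans (sub_dvd_pow_sub_pow _ _ t)
    rwa [one_pow, one_pow, ← pow_mul, ← hW] at h2
  refine ⟨fun τ => ModularForm.E hk τ ^ (ℓ ^ a * t), PowerSeries.expand N hN (W.map O.subtype), ?_,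
    ?_, fun n hn => ?_, fun A τ => ?_⟩
  · refine FA.KlingenIntegral.hasQ_expand hN ?_
    have h := hEq.pow one_pos (ℓ ^ a * t)
    rw [← map_pow, ← hW] at h
    exact h
  · rw [PowerSeries.coeff_zero_eq_constantCoeff, PowerSeries.constantCoeff_expand]
    rw [← PowerSeries.coeff_zero_eq_constantCoeff_apply, PowerSeries.coeff_map,
      PowerSeries.coeff_zero_eq_constantCoeff_apply, hW, map_pow, hE0, one_pow, map_one]
  · rw [PowerSeries.coeff_expand]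
    split_ifs with hd
    · obtain ⟨j, rfl⟩ := hd
      obtain ⟨R, hR⟩ := hW1
      rw [Nat.mul_div_cancel_left _ (Nat.pos_of_ne_zero hN), eq_add_of_sub_eq hR,
        PowerSeries.coeff_map, map_add, map_add, PowerSeries.coeff_one,
        if_neg (fun e => hn (by rw [e, mul_zero])), map_zero, add_zero, ← map_natCast PowerSeries.C,
        ← map_pow, PowerSeries.coeff_C_mul, map_mul, map_pow, map_natCast, map_mul, map_pow]
      exact mul_le_of_le_one_right' (O.valuation_le_one _)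
    · rw [map_zero]
      exact zero_le
  · have h := congrFun (SlashInvariantForm.slash_action_eqn (ModularForm.E hk)
      (A : GL (Fin 2) ℝ) ⟨A, rfl⟩) τ
    rw [← ModularForm.SL_slash, FA.Eis.slash_sl_apply, zpow_neg, zpow_natCast] at h
    have hd := pow_ne_zero (ℓ - 1) (FA.Eis.den_ne_zero A τ)
    have e : ModularForm.E hk (A • τ) = FA.Eis.den A τ ^ (ℓ - 1) * ModularForm.E hk τ := by
      rw [← h]
      field_simp
    show ModularForm.E hk (A • τ) ^ (ℓ ^ a * t) = _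
    rw [e, mul_pow, ← pow_mul, mul_assoc (ℓ - 1)]

end FA.WeightLevel

end
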