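import Fermat.Agent.KlingenIntegral.Cusps
import Fermat.Agent.WeightLevel.CongruentOne

/-!
# The normalised values of two weights are congruent

For `k ≡ k'` modulo `(ℓ - 1) ℓ ^ a`, `a + 2 ≤ k ≤ k'`, the difference between the Eisenstein series
of weight `k'` and that of weight `k` times a form congruent to one has coefficients of positive
index divisible by `ℓ ^ (a + 1)` at every cusp, hence so are its constants.
-/

set_option autoImplicit false
set_option linter.unusedSectionVars false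
set_option linter.style.haveILetI false

noncomputable section

open NumberField InfinitePlace Module Filter
open UpperHalfPlane hiding I
open scoped Real nonZeroDivisors Classical MatrixGroups Manifold ModularForm

namespace FA.WeightLevel

open FA.HeckeFE FA.SiegelKlingen FA.KlingenRay FA.KlingenIntegral FA.Eis
open FA.KlingenZero (DualPair wHat)
open FA.PadicEulerFactor (pMul)
open CongruenceSubgroup (Gamma1)

/-- The condition on the weight carries over. -/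
theorem adm_congr {ℓ w W : ℕ} (hℓ : Even (ℓ - 1)) (hW : (ℓ - 1) ∣ W)
    (h : ¬(ℓ - 1) ∣ 2 * w ∨ (Even w ∧ ¬(ℓ - 1) ∣ w)) :
    ¬(ℓ - 1) ∣ 2 * (w + W) ∨ (Even (w + W) ∧ ¬(ℓ - 1) ∣ w + W) := by
  rw [mul_add, Nat.dvd_add_left (hW.mul_left 2), Nat.dvd_add_left hW, Nat.even_add]
  have hWe : Even W := even_iff_two_dvd.2 (hℓ.two_dvd.trans hW)
  exact h.imp_right fun h' => ⟨⟨fun _ => hWe, fun _ => h'.1⟩, h'.2⟩

variable {K : Type*} [Field K] [NumberField K] [IsTotallyReal K]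
variable {J : (FractionalIdeal (𝓞 K)⁰ K)ˣ} {N : ℕ} [NeZero N]
variable {O : ValuationSubring ℂ} {ℓ : ℕ} {Φ : K → ℂ}

/-- **Congruent weights, congruent normalised values.** -/
theorem val_normVal_sub (hp : ℓ.Prime) (hℓ : O.valuation (ℓ : ℂ) < 1) (h5 : 5 ≤ ℓ) (hN : ¬ℓ ∣ N)
    {a k k' : ℕ} (hak : a + 2 ≤ k) (hkk : k ≤ k') (hd : (ℓ - 1) * ℓ ^ a ∣ k' - k)
    (hadm : ¬(ℓ - 1) ∣ 2 * (k * finrank ℚ K) ∨
      (Even (k * finrank ℚ K) ∧ ¬(ℓ - 1) ∣ k * finrank ℚ K))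
    (h : EisData J N k Φ) (h' : EisData J N k' Φ)
    (hΦ : ∀ d ∈ (J : Set K), O.valuation (Φ d) ≤ 1) :
    O.valuation (((dualScale J ^ (k' - 1) : ℚ) : ℂ) * normVal J N k' Φ -
      ((dualScale J ^ (k - 1) : ℚ) : ℂ) * normVal J N k Φ) ≤ O.valuation (ℓ : ℂ) ^ (a + 1) := by
  obtain ⟨t, ht⟩ := hd
  obtain rfl : k' = k + (ℓ - 1) * ℓ ^ a * t := by omega
  obtain ⟨n, hn⟩ : ∃ n, n = finrank ℚ K := ⟨_, rfl⟩
  obtain ⟨W, hW⟩ : ∃ W, W = (ℓ - 1) * ℓ ^ a * (t * n) := ⟨_, rfl⟩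
  obtain ⟨F, B, hB, hinv, hcusp, hval⟩ := h
  obtain ⟨F', B', hB', hinv', hcusp', hval'⟩ := h'
  rw [← hn] at hadm hinv hcusp hinv' hcusp'
  have hw : (k + (ℓ - 1) * ℓ ^ a * t) * n = k * n + W := by rw [hW]; ring
  rw [hw] at hinv' hcusp'
  choose C hC using hcusp
  choose C' hC' using hcusp'
  obtain ⟨Fib, hF0, hFpos, hFq⟩ := exists_fibre J N
  obtain ⟨e, U, hU, hU0, hUv, hemove⟩ :=
    exists_congruent_one hp hℓ h5 a (t * n) (NeZero.ne N)
  rw [← hW] at hemove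
  obtain ⟨x, hx⟩ : ∃ x : ℕ → ℂ, ∀ j, x j =
      ((dualScale J ^ (j - 1) : ℚ) : ℂ) * (factor (pMul J N) j)⁻¹ := ⟨_, fun _ => rfl⟩
  obtain ⟨T, hT⟩ : ∃ T : ℕ → (SL(2, ℤ) → ℂ) → SL(2, ℤ) → PowerSeries ℂ, ∀ j c A, T j c A =
      x j • (PowerSeries.C (c A) + factor (pMul J N) j • PowerSeries.mk fun m =>
        ∑ p ∈ Fib m, cuspTerm J N j (fun q => liftW J N Φ (rowMul A⁻¹ q)) p) :=
    ⟨_, fun _ _ _ => rfl⟩
  have hN0 : (0 : ℝ) < (N : ℝ) := Nat.cast_pos.2 (NeZero.pos N)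
  have hTq : ∀ (j w : ℕ) (G : ℍ → ℂ) (c : SL(2, ℤ) → ℂ) (A : SL(2, ℤ)), (∀ τ : ℍ, HasSum
      (fun p : DualPair J N => cuspTerm J N j (fun q => liftW J N Φ (rowMul A⁻¹ q)) p *
        expTerm (τ : ℂ) p.1.1 p.2) ((factor (pMul J N) j)⁻¹ * ((G ∣[(w : ℤ)] A) τ - c A))) →
      HasQ (N : ℝ) ((x j • G) ∣[(w : ℤ)] A) (T j c A) := fun j w G c A hs => by
    rw [hT, ModularForm.SL_smul_slash]
    refine HasQ.smul ?_ _
    convert (HasQ.const (N : ℝ) (c A)).add ((hFq j _ _ hs).smul (factor (pMul J N) j)) using 1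
    funext τ
    simp only [Pi.add_apply, Pi.smul_apply, smul_eq_mul]
    rw [mul_inv_cancel_left₀ (factor_ne_zero (pMul J N) j), add_sub_cancel]
  have hcoef : ∀ j c A m, m ≠ 0 → PowerSeries.coeff m (T j c A) = ∑ p ∈ Fib m,
      ((dualScale J ^ (j - 1) : ℚ) : ℂ) *
        cuspTerm J N j (fun q => liftW J N Φ (rowMul A⁻¹ q)) p := fun j c A m hm => by
    rw [hT, PowerSeries.coeff_smul, map_add, PowerSeries.coeff_C, if_neg hm, zero_add,
      PowerSeries.coeff_smul, PowerSeries.coeff_mk, smul_eq_mul, smul_eq_mul, hx, mul_assoc,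
      inv_mul_cancel_left₀ (factor_ne_zero (pMul J N) j), Finset.mul_sum]
  have hwv : ∀ (A : SL(2, ℤ)) (p : DualPair J N),
      O.valuation (wHat J N (fun q => liftW J N Φ (rowMul A⁻¹ q)) p.1.1 p.2) ≤ 1 := fun A p =>
    val_wHat (val_lift hΦ A⁻¹) p.1.2.1 p.2.2
  have hT1 : ∀ A m, m ≠ 0 → O.valuation (PowerSeries.coeff m (T k C A)) ≤ 1 := fun A m hm => by
    rw [hcoef k C A m hm]
    refine Valuation.map_sum_le _ fun p hp' => ?_
    rw [scale_cuspTerm (hFpos m p hp'), map_mul, map_mul, map_pow,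
      val_sign (sgnN_pow_sq k (Rep.ne_zero J p.1)), one_mul]
    exact mul_le_one' (pow_le_one₀ zero_le (val_norm_scale hp hℓ hN p.2.2)) (hwv A p)
  have hTle : ∀ A m, O.valuation (PowerSeries.coeff m (T k C A)) ≤ 1 := fun A m => by
    rcases eq_or_ne m 0 with rfl | hm
    · refine constant_le_level hp hℓ h5 hN hadm Gamma_le_one
        (f := x k • F) (Γ := Gamma1 N) ⟨fun g hg => by rw [ModularForm.SL_smul_slash, hinv g hg],
          (hB.smul _).mdiff one_pos, fun A' => (hTq k _ F C A' (hC A')).bdd hN0⟩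
        (T k C) (fun A' => hTq k _ F C A' (hC A')) (fun A' => hT1 A') A
    · exact hT1 A m hm
  obtain ⟨g, hg⟩ : ∃ g : ℍ → ℂ, g = x (k + (ℓ - 1) * ℓ ^ a * t) • F' - (x k • F) * e := ⟨_, rfl⟩
  have hgA : ∀ A : SL(2, ℤ), g ∣[((k * n + W : ℕ) : ℤ)] A =
      (x (k + (ℓ - 1) * ℓ ^ a * t) • F') ∣[((k * n + W : ℕ) : ℤ)] A -
        ((x k • F) ∣[((k * n : ℕ) : ℤ)] A) * e := fun A => by
    funext τ
    have hd := FA.Eis.den_ne_zero A τ
    simp only [hg, Pi.sub_apply, Pi.mul_apply, slash_sl_apply, hemove A τ]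
    rw [Nat.cast_add, neg_add, zpow_add₀ hd, zpow_neg _ (W : ℤ), zpow_natCast (FA.Eis.den A τ) W]
    have hdW := pow_ne_zero W hd
    field_simp
  have hser : ∀ A, HasQ (N : ℝ) (g ∣[((k * n + W : ℕ) : ℤ)] A)
      (T (k + (ℓ - 1) * ℓ ^ a * t) C' A - T k C A * U) := fun A => by
    rw [hgA]
    exact (hTq _ _ F' C' A (hC' A)).sub ((hTq k _ F C A (hC A)).mul hN0 hU)
  have hmf : IsMF (Gamma1 N) (k * n + W) g := by
    refine ⟨fun γ hγ => ?_, ?_, fun A => (hser A).bdd hN0⟩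
    · rw [hgA, ModularForm.SL_smul_slash, ModularForm.SL_smul_slash, hinv γ hγ, hinv' γ hγ, hg]
    · have h1 := hser 1
      rw [SlashAction.slash_one] at h1
      exact h1.mdiff hN0
  have key := constant_le_level hp hℓ h5 hN
    (adm_congr (W := W) (hp.even_sub_one (by omega)) (hW ▸ (dvd_mul_right _ _).mul_right _) hadm)
    Gamma_le_one hmf _ hser (γ := O.valuation (ℓ : ℂ) ^ (a + 1)) (fun A m hm => ?_) 1
  · have e0 : ∀ (j w : ℕ) (G : ℍ → ℂ) (c : SL(2, ℤ) → ℂ) (D : PowerSeries ℂ), HasQ 1 G D →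
        HasQ (N : ℝ) ((x j • G) ∣[(w : ℤ)] (1 : SL(2, ℤ))) (T j c 1) →
        PowerSeries.coeff 0 (T j c 1) = ((dualScale J ^ (j - 1) : ℚ) : ℂ) *
          ((factor (pMul J N) j)⁻¹ * PowerSeries.coeff 0 D) := fun j w G c D hD hG => by
      rw [SlashAction.slash_one] at hG
      rw [hG.unique hN0 (hasQ_expand (NeZero.ne N) (hD.smul (x j))),
        PowerSeries.coeff_zero_eq_constantCoeff, PowerSeries.constantCoeff_expand]
      rw [← PowerSeries.coeff_zero_eq_constantCoeff_apply, PowerSeries.coeff_smul, smul_eq_mul, hx,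
        mul_assoc, PowerSeries.coeff_zero_eq_constantCoeff_apply]
    rw [map_sub, PowerSeries.coeff_mul, Finset.Nat.antidiagonal_zero, Finset.sum_singleton, hU0,
      mul_one, e0 _ _ F' C' B' hB' (hTq _ _ F' C' 1 (hC' 1)),
      e0 _ _ F C B hB (hTq k _ F C 1 (hC 1)), ← hval, ← hval'] at key
    exact key
  -- the coefficients of positive index
  rw [show T k C A * U = T k C A + T k C A * (U - 1) by ring, map_sub, map_add, ← sub_sub]
  refine O.valuation.map_sub_le ?_ ?_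
  · rw [hcoef _ C' A m hm, hcoef k C A m hm, ← Finset.sum_sub_distrib]
    refine Valuation.map_sum_le _ fun p hp' => ?_
    have hsgn : sgnN (p.1.1 : K) ^ (k + (ℓ - 1) * ℓ ^ a * t) = sgnN (p.1.1 : K) ^ k := by
      obtain ⟨r, hr⟩ : Even ((ℓ - 1) * ℓ ^ a * t) :=
        ((hp.even_sub_one (by omega)).mul_right _).mul_right _
      rw [hr, pow_add, pow_add, sgnN_pow_sq r (Rep.ne_zero J p.1), mul_one]
    rw [scale_cuspTerm (hFpos m p hp'), scale_cuspTerm (hFpos m p hp'), hsgn, ← sub_mul, ← mul_sub,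
      map_mul, map_mul, val_sign (sgnN_pow_sq k (Rep.ne_zero J p.1)), one_mul]
    refine (mul_le_of_le_one_right' (hwv A p)).trans
      (val_pow_sub_pow hp hℓ (val_norm_scale hp hℓ hN p.2.2) (a := a) (by omega) (by omega)
        ⟨t, by omega⟩)
  · rw [PowerSeries.coeff_mul]
    refine Valuation.map_sum_le _ fun p _ => ?_
    rw [map_mul, map_sub, PowerSeries.coeff_one]
    refine (mul_le_of_le_one_left' (hTle A p.1)).trans ?_
    split_ifs with h0
    · rw [h0, hU0, sub_self, map_zero]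
      exact zero_le
    · rw [sub_zero]
      exact hUv _ h0

end FA.WeightLevel

end
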