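import Fermat.Agent.WeightLevel.Kummer
import Fermat.Agent.ClassIntegral.Combination

/-!
# Kummer's congruences for totally real fields

The values at `1 - k` are combinations, over the classes, of the normalised values with factors
`N ^ (n (k - 1))` and factors that depend on the parity of `k` alone, so they are congruent modulo
`ℓ ^ (a + 1)` for `k` congruent modulo `(ℓ - 1) ℓ ^ a`.
-/

set_option autoImplicit false
set_option linter.unusedSectionVars false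
set_option linter.style.haveILetI false

noncomputable section

open NumberField InfinitePlace IsDedekindDomain Module Filter Complex
open scoped Real nonZeroDivisors Classical Topology

namespace FA.WeightLevel

open FA.HeckeFE FA.SiegelKlingen FA.HeckeCharFE FA.KlingenRay FA.KlingenIntegral FA.ClassIntegral
open FA.Hecke (IsRayChar)
open FA.PadicEulerFactor (pMul)

variable {K : Type*} [Field K] [NumberField K] [IsTotallyReal K]
variable {𝔪 : Ideal (𝓞 K)} {S : Finset (InfinitePlace K)} {O : ValuationSubring ℂ} {ℓ : ℕ}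

/-- The factors of a class at two weights of one parity. -/
theorem val_term_sub (hp : ℓ.Prime) (hℓ : O.valuation (ℓ : ℂ) < 1) (h5 : 5 ≤ ℓ)
    (J : (FractionalIdeal (𝓞 K)⁰ K)ˣ) {N : ℕ} [NeZero N] (hN : ¬ℓ ∣ N) {m a k k' : ℕ}
    (hak : a + 2 ≤ k) (hkk : k ≤ k') (hd : (ℓ - 1) * ℓ ^ a ∣ k' - k) {x x' : ℂ}
    (hx' : O.valuation (((dualScale J ^ (k' - 1) : ℚ) : ℂ) * x') ≤ 1)
    (hsub : O.valuation (((dualScale J ^ (k' - 1) : ℚ) : ℂ) * x' -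
      ((dualScale J ^ (k - 1) : ℚ) : ℂ) * x) ≤ O.valuation (ℓ : ℂ) ^ (a + 1)) :
    O.valuation (((feFactor K ⊤ k' : ℚ) : ℂ) *
        ((((m ^ (k' - 1) : ℕ) : ℕ) : ℂ) * (((idealWeight J k' N : ℚ) : ℂ) * x')) -
      ((feFactor K ⊤ k : ℚ) : ℂ) *
        ((((m ^ (k - 1) : ℕ) : ℕ) : ℂ) * (((idealWeight J k N : ℚ) : ℂ) * x))) ≤
      O.valuation (ℓ : ℂ) ^ (a + 1) := by
  obtain ⟨n, hn⟩ : ∃ n, n = finrank ℚ K := ⟨_, rfl⟩
  obtain ⟨κ, hκ⟩ : ∃ κ : ℂ, κ = (2 * (-1) ^ k) ^ n / (2 * (N : ℂ) ^ n) := ⟨_, rfl⟩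
  have hpar : ((-1 : ℂ) ^ k') = (-1) ^ k := by
    obtain ⟨t, ht⟩ := hd
    rw [show k' = k + (ℓ - 1) * ℓ ^ a * t by omega, pow_add,
      (((hp.even_sub_one (by omega)).mul_right _).mul_right _).neg_one_pow, mul_one]
  have hκv : O.valuation κ ≤ 1 := by
    have h2 : O.valuation (2 : ℂ) = 1 := by
      rw [show (2 : ℂ) = ((2 : ℕ) : ℂ) by norm_num]
      exact val_natCast_eq_one hp hℓ fun h => by
        have := Nat.le_of_dvd two_pos h
        omega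
    rw [hκ, map_div₀, map_pow, map_mul, map_pow, Valuation.map_neg, map_one, one_pow, mul_one, h2,
      one_pow, map_mul, h2, one_mul, map_pow, val_natCast_eq_one hp hℓ hN, one_pow, div_one]
  have key : ∀ j, 1 ≤ j → (-1 : ℂ) ^ j = (-1) ^ k → ∀ y : ℂ,
      ((feFactor K ⊤ j : ℚ) : ℂ) *
        ((((m ^ (j - 1) : ℕ) : ℕ) : ℂ) * (((idealWeight J j N : ℚ) : ℂ) * y)) =
      κ * ((m : ℂ) ^ (j - 1) * (((dualScale J ^ (j - 1) : ℚ) : ℂ) * y)) := fun j hj hjk y => by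
    have e := congrArg (fun q : ℚ => (q : ℂ)) (term_eq J (N := N) (m ^ (j - 1)) hj)
    simp only [Rat.cast_mul, Rat.cast_natCast, Rat.cast_div, Rat.cast_intCast, ← hn] at e
    push_cast at e
    rw [hjk] at e
    rw [hκ]
    push_cast
    linear_combination y * e
  rw [key k' (by omega) hpar, key k (by omega) rfl, ← mul_sub, map_mul]
  refine (mul_le_of_le_one_left' hκv).trans ?_
  rw [show (m : ℂ) ^ (k' - 1) * (((dualScale J ^ (k' - 1) : ℚ) : ℂ) * x') -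
      (m : ℂ) ^ (k - 1) * (((dualScale J ^ (k - 1) : ℚ) : ℂ) * x) =
      (((m : ℚ) : ℂ) ^ (k' - 1) - ((m : ℚ) : ℂ) ^ (k - 1)) *
          (((dualScale J ^ (k' - 1) : ℚ) : ℂ) * x') +
        (m : ℂ) ^ (k - 1) * (((dualScale J ^ (k' - 1) : ℚ) : ℂ) * x' -
          ((dualScale J ^ (k - 1) : ℚ) : ℂ) * x) by rw [Rat.cast_natCast]; ring]
  refine O.valuation.map_add_le ?_ ?_
  · rw [map_mul]
    obtain ⟨t, ht⟩ := hd
    exact (mul_le_of_le_one_right' hx').trans (val_pow_sub_pow hp hℓ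
      (by rw [Rat.cast_natCast]; exact val_natCast_le m) (by omega) (by omega) ⟨t, by omega⟩)
  · rw [map_mul, map_pow]
    exact (mul_le_of_le_one_left' (pow_le_one₀ zero_le (val_natCast_le m))).trans hsub

variable {ι : Type*} {F : ι → Ideal (𝓞 K) →* ℂ} {P : Finset ι} {c : ι → ℂ}

/-- **The congruence for combinations of one parity.** -/
theorem val_parity_sub (hp : ℓ.Prime) (hℓ : O.valuation (ℓ : ℂ) < 1) (h5 : 5 ≤ ℓ) (h𝔪 : 𝔪 ≠ ⊥)
    (hS : ∀ i ∈ P, HasSigns 𝔪 (F i) S) {a k k' : ℕ} (hak : a + 2 ≤ k) (hkk : k ≤ k')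
    (hd : (ℓ - 1) * ℓ ^ a ∣ k' - k) (hk2 : k = 2 → 2 ≤ finrank ℚ K) (hpar : HasParity S k)
    (hadm : ¬(ℓ - 1) ∣ 2 * (k * finrank ℚ K) ∨
      (Even (k * finrank ℚ K) ∧ ¬(ℓ - 1) ∣ k * finrank ℚ K))
    (hN : ¬ℓ ∣ Ideal.absNorm 𝔪)
    (hval : ∀ A : Ideal (𝓞 K), A ≠ ⊥ → O.valuation (∑ i ∈ P, c i * F i A) ≤ 1)
    {Z : ι → ℂ → ℂ} (hZ : ∀ i ∈ P, IsLExt (F i) (Z i)) :
    O.valuation (∑ i ∈ P, c i * Z i (1 - (k' : ℂ)) - ∑ i ∈ P, c i * Z i (1 - (k : ℂ))) ≤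
      O.valuation (ℓ : ℂ) ^ (a + 1) := by
  have : NeZero (Ideal.absNorm 𝔪) := ⟨fun e => h𝔪 (Ideal.absNorm_eq_zero_iff.1 e)⟩
  obtain ⟨N, hNdef⟩ : ∃ N, N = Ideal.absNorm 𝔪 := ⟨_, rfl⟩
  have : NeZero N := ⟨hNdef ▸ NeZero.ne _⟩
  have hNm : (N : 𝓞 K) ∈ 𝔪 := hNdef ▸ Ideal.absNorm_mem 𝔪
  rw [← hNdef] at hN
  obtain ⟨t, ht⟩ := hd
  have hek : k' = k + (ℓ - 1) * (ℓ ^ a * t) := by rw [← mul_assoc]; omega
  have hE : Even ((ℓ - 1) * (ℓ ^ a * t)) := (hp.even_sub_one (by omega)).mul_right _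
  have hpar' : HasParity S k' := by
    rw [HasParity, hek, Nat.even_add, Nat.odd_add]
    rcases hpar with ⟨he, h⟩ | ⟨ho, h⟩
    · exact Or.inl ⟨⟨fun _ => hE, fun _ => he⟩, h⟩
    · exact Or.inr ⟨⟨fun _ => hE, fun _ => ho⟩, h⟩
  have hadm' : Admissible ℓ (k' * finrank ℚ K) := by
    refine Or.inr ?_
    rw [hek, add_mul]
    exact adm_congr (hp.even_sub_one (by omega)) ((dvd_mul_right _ _).mul_right _) hadm
  rw [comb_eq_classTerm hS (by omega) hpar' hNm hZ, comb_eq_classTerm hS (by omega) hpar hNm hZ,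
    ← Finset.sum_sub_distrib]
  refine Valuation.map_sum_le _ fun C _ => ?_
  have hN1 : ¬ℓ ∣ N * 1 := by rwa [mul_one]
  have hb : ∀ d ∈ (dualLat (repIdeal K C) N : Set K),
      O.valuation (hatSum (repIdeal K C) N (combRes 𝔪 F S P c (repIdeal K C)) d) ≤ 1 := fun d hd =>
    val_hatSum (fun r hr => val_combRes h𝔪 hS hval _ hr) hd
  have hdata : ∀ j, 2 ≤ j → (j = 2 → 2 ≤ finrank ℚ K) → HasParity S j →
      EisData (dualLat (repIdeal K C) N) (N * 1) j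
        (hatSum (repIdeal K C) N (combRes 𝔪 F S P c (repIdeal K C))) := fun j hj hj2 hjp => by
    have hper := isPer_hatSum (isPer_combRes (c := c) hS hjp hNm (repIdeal K C)) 1
    rcases Nat.eq_or_lt_of_le hj with rfl | hj'
    · exact eisData_two hper (hj2 rfl)
    · exact eisData_normVal hper hj'
  have hk2' : k' = 2 → 2 ≤ finrank ℚ K := fun e => hk2 (by omega)
  simp only [classTerm, ← Nat.cast_pow, pow_mul]
  exact val_term_sub hp hℓ h5 _ hN1 hak hkk ⟨t, ht⟩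
    (val_of_eisData hp hℓ h5 hN1 (by omega) hadm' (hdata k' (by omega) hk2' hpar') hb)
    (val_normVal_sub hp hℓ h5 hN1 hak hkk ⟨t, ht⟩ hadm (hdata k (by omega) hk2 hpar)
      (hdata k' (by omega) hk2' hpar') hb)

/-- **Kummer's congruence for combinations.** -/
theorem val_combination_sub [Fintype ι] (hp : ℓ.Prime) (hℓ : O.valuation (ℓ : ℂ) < 1) (h5 : 5 ≤ ℓ)
    (hF : ∀ i, IsRayChar 𝔪 (F i)) (h𝔪 : 𝔪 ≠ ⊥) {a k k' : ℕ} (hak : a + 2 ≤ k) (hkk : k ≤ k')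
    (hd : (ℓ - 1) * ℓ ^ a ∣ k' - k) (hk2 : k = 2 → 2 ≤ finrank ℚ K)
    (hadm : ¬(ℓ - 1) ∣ 2 * (k * finrank ℚ K) ∨
      (Even (k * finrank ℚ K) ∧ ¬(ℓ - 1) ∣ k * finrank ℚ K))
    (hN : ¬ℓ ∣ Ideal.absNorm 𝔪)
    (hval : ∀ A : Ideal (𝓞 K), A ≠ ⊥ → O.valuation (∑ i, c i * F i A) ≤ 1)
    {Z : ι → ℂ → ℂ} (hZ : ∀ i, IsLExt (F i) (Z i)) :
    O.valuation (∑ i, c i * Z i (1 - (k' : ℂ)) - ∑ i, c i * Z i (1 - (k : ℂ))) ≤
      O.valuation (ℓ : ℂ) ^ (a + 1) := by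
  obtain ⟨P, S, hpar, hS, hvalP, hPz⟩ := exists_parity_part hp hℓ h5 hF h𝔪 k hval hZ
  have hev : Even k' ↔ Even k := by
    obtain ⟨t, ht⟩ := hd
    rw [show k' = k + (ℓ - 1) * ℓ ^ a * t by omega, Nat.even_add]
    have := ((hp.even_sub_one (by omega)).mul_right (ℓ ^ a)).mul_right t
    tauto
  rw [hPz k Iff.rfl (by omega) (fun e => hk2 (by omega)),
    hPz k' hev (by omega) (fun e => hk2 (by omega))]
  exact val_parity_sub hp hℓ h5 h𝔪 hS hak hkk hd hk2 hpar hadm hN hvalP fun i _ => hZ i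

end FA.WeightLevel

end
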