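import Fermat.Agent.WeightLevel.Series
import Fermat.Agent.CurveRed.Residue
import Mathlib.FieldTheory.AlgebraicClosure
import Mathlib.FieldTheory.IsAlgClosed.AlgebraicClosure

/-!
# The map to `k⟦λ - r⟧`

The reduced integral functions are algebraic over `k(λ)`, so `λ ↦ r + t` extends to them with
values in an algebraic closure of `k((t))`; the invariants go to `k⟦t⟧` for `r ≠ 0, 1`.
-/

set_option autoImplicit false
set_option linter.unusedSectionVars false
set_option linter.style.haveILetI false
set_option synthInstance.maxHeartbeats 100000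

noncomputable section

namespace FA.WeightLevel

open UpperHalfPlane hiding I
open CongruenceSubgroup HahnSeries ModularCurve FA.Level FA.ModField FA.Mazur.Wp FA.Carayol
open Polynomial (X)
open scoped MatrixGroups Classical

variable {O : ValuationSubring ℂ} {ℓ N : ℕ} [NeZero N] {h : ℕ}
variable (hN : N = 2 * h) (hp : GoodPrime O ℓ N)
include hp

/-! ### The map to `k⟦λ - r⟧` -/

/-- The algebraic closure of `k((t))`. -/
abbrev BigField (O : ValuationSubring ℂ) : Type := AlgebraicClosure (LaurentSeries (resField O))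

omit hp in
variable (O) in
/-- `k⟦t⟧` in the algebraic closure. -/
def incl : PowerSeries (resField O) →+* BigField O :=
  (algebraMap (LaurentSeries (resField O)) (BigField O)).comp (ofPowerSeries ℤ (resField O))

omit hp in
theorem incl_injective : Function.Injective (incl O) :=
  (algebraMap (LaurentSeries (resField O)) (BigField O)).injective.comp ofPowerSeries_injective

/-- **The embedding at `r`.** -/
theorem exists_map {r : resField O} (hr0 : r ≠ 0) (hr1 : r ≠ 1) :
    ∃ ψ : intFun O N →+* BigField O, (∀ a b, redFun O N a = redFun O N b → ψ a = ψ b) ∧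
      (∀ x, ψ (cB O N x) = incl O (PowerSeries.C (IsLocalRing.residue O x))) ∧
      ψ (lamB hN hp) = incl O (PowerSeries.C r + PowerSeries.X) ∧
      ∀ b ∈ fix O N, ψ b ∈ (incl O).range := by
  obtain ⟨L, hL⟩ : ∃ L, L = redFun O N (lamB hN hp) := ⟨_, rfl⟩
  have hLe : (nonZeroDivisors (Polynomial (resField O))) ≤
      (nonZeroDivisors (LaurentSeries (resField O))).comap
        (Polynomial.eval₂RingHom HahnSeries.C L) := fun P hP =>
    mem_nonZeroDivisors_iff_ne_zero.2 (hL ▸ lam_transcendental hN hp (nonZeroDivisors.ne_zero hP))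
  let e : RatFunc (resField O) →+* LaurentSeries (resField O) := RatFunc.liftRingHom _ hLe
  have hxr : ∀ P : Polynomial (resField O), P ≠ 0 →
      P.eval₂ PowerSeries.C (PowerSeries.C r + PowerSeries.X) ≠ 0 := fun P hP h0 => by
    have hc : (P.comp (X + Polynomial.C r)).comp (X - Polynomial.C r) = P := by
      rw [Polynomial.comp_assoc, Polynomial.add_comp, Polynomial.X_comp, Polynomial.C_comp,
        sub_add_cancel, Polynomial.comp_X]
    refine eval₂_ne_zero (U := (PowerSeries.X : PowerSeries (resField O))) PowerSeries.constantCoeff_X PowerSeries.X_ne_zero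
      (P := P.comp (X + Polynomial.C r)) (fun e0 => hP (by rw [← hc, e0, Polynomial.zero_comp])) ?_
    have h1 := congrArg (ofPowerSeries ℤ (resField O)) h0
    rw [Polynomial.hom_eval₂, map_zero, map_add] at h1
    rw [Polynomial.eval₂_comp, Polynomial.eval₂_add, Polynomial.eval₂_X, Polynomial.eval₂_C,
      add_comm, ← ofPowerSeries_C]
    rw [show ((ofPowerSeries ℤ (resField O)).comp PowerSeries.C) =
        (HahnSeries.C : resField O →+* LaurentSeries (resField O)) from
      RingHom.ext fun a => ofPowerSeries_C a] at h1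
    exact h1
  let s : RatFunc (resField O) →+* BigField O := RatFunc.liftRingHom
    ((incl O).comp (Polynomial.eval₂RingHom PowerSeries.C (PowerSeries.C r + PowerSeries.X)))
    fun P hP => mem_nonZeroDivisors_iff_ne_zero.2 ((map_ne_zero_iff _ incl_injective).2
      (hxr P (nonZeroDivisors.ne_zero hP)))
  have heP : ∀ P : Polynomial (resField O), e (algebraMap _ _ P) = P.eval₂ HahnSeries.C L :=
    fun P => RatFunc.liftRingHom_algebraMap _ _ P
  have hsP : ∀ P : Polynomial (resField O), s (algebraMap _ _ P) =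
      incl O (P.eval₂ PowerSeries.C (PowerSeries.C r + PowerSeries.X)) :=
    fun P => RatFunc.liftRingHom_algebraMap _ _ P
  let F : Subfield (LaurentSeries (resField O)) := e.fieldRange
  let ee : RatFunc (resField O) ≃+* F := RingEquiv.ofBijective e.rangeRestrictField
    ⟨fun _ _ h' => e.injective (congrArg Subtype.val h'), fun ⟨_, x, hx⟩ => ⟨x, Subtype.ext hx⟩⟩
  letI : Algebra F (BigField O) := (s.comp ee.symm.toRingHom).toAlgebra
  have hs : ∀ (y : RatFunc (resField O)) (z : F), (z : LaurentSeries (resField O)) = e y →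
      algebraMap F (BigField O) z = s y := fun y z hz => by
    obtain rfl : z = ee y := Subtype.ext hz
    show s (ee.symm (ee y)) = s y
    rw [RingEquiv.symm_apply_apply]
  -- the invariants reduce into `F`
  have hfix : ∀ b ∈ fix O N, ∃ y : RatFunc (resField O), e y = redFun O N b ∧
      s y ∈ (incl O).range := fun b hb => by
    obtain ⟨a, c, P, hP⟩ := exists_fix_poly hN hp hb
    rw [← hL] at hP
    obtain ⟨D, hD⟩ : ∃ D : Polynomial (resField O), D = X ^ a * (1 - X) ^ c := ⟨_, rfl⟩
    have hD0 : D ≠ 0 := hD ▸ mul_ne_zero (pow_ne_zero _ Polynomial.X_ne_zero) (pow_ne_zero _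
      fun e0 => by simpa [Polynomial.coeff_one] using congrArg (fun Q => Polynomial.coeff Q 1) e0)
    have hDu : IsUnit (D.eval₂ PowerSeries.C (PowerSeries.C r + PowerSeries.X)) := by
      rw [PowerSeries.isUnit_iff_constantCoeff, hD]
      simp [Polynomial.eval₂_mul, Polynomial.eval₂_pow, hr0, sub_ne_zero.2 (Ne.symm hr1)]
    refine ⟨algebraMap _ _ P / algebraMap _ _ D, ?_, ?_⟩
    · rw [map_div₀, heP, heP, div_eq_iff (hL ▸ lam_transcendental hN hp hD0), ← hP, hD]
      simp [Polynomial.eval₂_mul, Polynomial.eval₂_pow]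
      ring
    · obtain ⟨u, hu⟩ := hDu
      refine ⟨P.eval₂ PowerSeries.C (PowerSeries.C r + PowerSeries.X) * ↑u⁻¹, ?_⟩
      rw [map_div₀, hsP, hsP, map_mul, div_eq_mul_inv, ← hu, map_units_inv]
  let LL := algebraicClosure F (LaurentSeries (resField O))
  have hF : ∀ b ∈ fix O N, redFun O N b ∈ F := fun b hb => (hfix b hb).imp fun y hy => hy.1
  have hint : ∀ b : intFun O N, redFun O N b ∈ LL := fun b => by
    obtain ⟨Q, hQ⟩ : ∃ Q : Polynomial (intFun O N), Q = ∏ σ ∈ gal O N, (X - Polynomial.C (σ b)) := ⟨_, rfl⟩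
    have hQc : ∀ n, Q.coeff n ∈ fix O N := fun n => mem_fix.2 fun τ hτ => by
      rw [← Polynomial.coeff_map]
      congr 1
      rw [hQ, Polynomial.map_prod]
      exact Finset.prod_nbij (fun σ => τ.comp σ) (fun σ hσ => (bijOn_comp hτ).mapsTo hσ)
        (bijOn_comp hτ).injOn (bijOn_comp hτ).surjOn fun σ _ => by simp
    have hQF : Q.map (redFun O N) ∈ Polynomial.lifts (algebraMap F (LaurentSeries (resField O))) :=
      (Polynomial.lifts_iff_coeff_lifts _).2 fun n => by
        rw [Polynomial.coeff_map]
        exact ⟨⟨_, hF _ (hQc n)⟩, rfl⟩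
    have hQm : Q.Monic := hQ ▸ Polynomial.monic_prod_X_sub_C _ _
    obtain ⟨R, hR, -, hRm⟩ := Polynomial.lifts_and_degree_eq_and_monic hQF (hQm.map _)
    rw [mem_algebraicClosure_iff]
    refine IsIntegral.isAlgebraic ⟨R, hRm, ?_⟩
    rw [Polynomial.eval₂_eq_eval_map, hR, Polynomial.eval_map, ← Polynomial.coe_eval₂RingHom,
      hQ, map_prod]
    refine Finset.prod_eq_zero id_mem_gal ?_
    simp
  let φ : LL →ₐ[F] BigField O := IsAlgClosed.lift
  let ψ : intFun O N →+* BigField O :=
    φ.toRingHom.comp (RingHom.codRestrict (redFun O N) LL hint)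
  have hψ : ∀ (b : intFun O N) (y : RatFunc (resField O)), e y = redFun O N b → ψ b = s y :=
    fun b y hy => by
      rw [← hs y ⟨e y, y, rfl⟩ rfl, ← φ.commutes]
      exact congrArg φ (Subtype.ext hy.symm)
  refine ⟨ψ, fun a b hab => congrArg φ (Subtype.ext hab), fun x => ?_, ?_, fun b hb => ?_⟩
  · rw [hψ _ (algebraMap _ _ (Polynomial.C (IsLocalRing.residue O x))) (by
      rw [heP, Polynomial.eval₂_C, redFun_cB]), hsP, Polynomial.eval₂_C]
  · rw [hψ _ (algebraMap _ _ X) (by rw [heP, Polynomial.eval₂_X, hL]), hsP, Polynomial.eval₂_X]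
  · obtain ⟨y, hy, hys⟩ := hfix b hb
    rwa [hψ b y hy]

end FA.WeightLevel

end
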