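import Fermat.Agent.WeightLevel.Series
import Fermat.Agent.Carayol.Hasse.Count
import Fermat.Agent.KlingenIntegral.Core
import Mathlib.Data.Nat.Choose.Lucas

/-!
# The Hasse invariant of the lattice at infinity

The cubic with roots the abscissae of the half periods has coefficients `-E₄/48` and `E₆/864`, so
`E_(ℓ-1) ≡ 1` reads `δ ^ m (-1) ^ m H(λ) = 1` in the series over the residue field, for
`ℓ = 2 m + 1`, `δ` the difference of two roots and `H` Deuring's polynomial.
-/

set_option autoImplicit false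
set_option linter.unusedSectionVars false
set_option linter.style.haveILetI false
set_option synthInstance.maxHeartbeats 100000

noncomputable section

namespace FA.WeightLevel

open UpperHalfPlane hiding I
open CongruenceSubgroup HahnSeries ModularCurve FA.Level FA.ModField FA.Mazur.Wp FA.Carayol
open Polynomial (X)
open scoped MatrixGroups Classical

/-! ### The coefficient of `x ^ (ℓ - 1)` -/

section Poly

variable {k : Type*} [Field k] {ℓ : ℕ} [Fact ℓ.Prime] [CharP k ℓ]

/-- Translation keeps the coefficient of `x ^ (ℓ - 1)` in degree below `2 ℓ - 1`. -/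
theorem coeff_comp_add (P : Polynomial k) (hdeg : P.natDegree + 1 < 2 * ℓ) (t : k) :
    (P.comp (X + Polynomial.C t)).coeff (ℓ - 1) = P.coeff (ℓ - 1) := by
  have hp : ℓ.Prime := Fact.out
  have e : Polynomial.hasseDeriv (ℓ - 1) P = Polynomial.C (P.coeff (ℓ - 1)) := by
    ext n
    rw [Polynomial.hasseDeriv_coeff, Polynomial.coeff_C]
    rcases eq_or_ne n 0 with rfl | hn
    · simp
    rw [if_neg hn]
    rcases lt_or_ge P.natDegree (n + (ℓ - 1)) with hlt | hge
    · rw [Polynomial.coeff_eq_zero_of_natDegree_lt hlt, mul_zero]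
    refine mul_eq_zero_of_left ?_ _
    rw [CharP.cast_eq_zero_iff k ℓ, ← Nat.modEq_zero_iff_dvd]
    refine Choose.choose_modEq_choose_mod_mul_choose_div_nat.trans ?_
    have hℓ := hp.two_le
    rw [Nat.choose_eq_zero_of_lt, zero_mul]
    rw [Nat.mod_eq_of_lt (show ℓ - 1 < ℓ by omega),
      Nat.mod_eq_sub_mod (show ℓ ≤ n + (ℓ - 1) by omega),
      Nat.mod_eq_of_lt (show n + (ℓ - 1) - ℓ < ℓ by omega)]
    omega
  rw [← Polynomial.taylor_apply, Polynomial.taylor_coeff, e, Polynomial.eval_C]

/-- The coefficient of `x ^ (ℓ - 1)` of a power of a cubic through its roots. -/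
theorem coeff_cubic_pow {m : ℕ} (hm : ℓ = 2 * m + 1) {a b c : k} (hab : a ≠ b) :
    (((X - Polynomial.C a) * (X - Polynomial.C b) * (X - Polynomial.C c)) ^ m).coeff (2 * m) =
      (a - b) ^ m * ((-1) ^ m * (hPoly m k).eval ((c - b) / (a - b))) := by
  obtain ⟨δ, hδ⟩ : ∃ δ, δ = a - b := ⟨_, rfl⟩
  have hδ0 : δ ≠ 0 := hδ ▸ sub_ne_zero.2 hab
  obtain ⟨r, hr⟩ : ∃ r, r = (c - b) / (a - b) := ⟨_, rfl⟩
  rw [← hr, ← hδ]
  obtain ⟨P, hP⟩ : ∃ P, P = (X - Polynomial.C a) * (X - Polynomial.C b) * (X - Polynomial.C c) :=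
    ⟨_, rfl⟩
  have hdeg : (P ^ m).natDegree + 1 < 2 * ℓ := by
    have h3 : P.natDegree ≤ 3 := by
      rw [hP]
      refine Polynomial.natDegree_mul_le.trans
        ((add_le_add Polynomial.natDegree_mul_le le_rfl).trans ?_)
      simp only [Polynomial.natDegree_X_sub_C]
      omega
    have := Polynomial.natDegree_pow_le (p := P) (n := m)
    have := Nat.mul_le_mul_left m h3
    omega
  have e : (((P ^ m).comp (X + Polynomial.C b)).comp (Polynomial.C δ * X)) =
      Polynomial.C ((δ ^ 3) ^ m) * (X * (X - 1) * (X - Polynomial.C r)) ^ m := by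
    have hc : Polynomial.C c = Polynomial.C δ * Polynomial.C r + Polynomial.C b := by
      rw [← map_mul, ← map_add, hr, ← hδ, mul_div_cancel₀ _ hδ0, sub_add_cancel]
    have ha : Polynomial.C a = Polynomial.C δ + Polynomial.C b := by
      rw [← map_add, hδ, sub_add_cancel]
    rw [hP, Polynomial.pow_comp, Polynomial.pow_comp, map_pow Polynomial.C, ← mul_pow,
      map_pow Polynomial.C]
    congr 1
    simp only [Polynomial.mul_comp, Polynomial.sub_comp, Polynomial.add_comp, Polynomial.X_comp,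
      Polynomial.C_comp]
    rw [ha, hc]
    ring
  have h1 := congrArg (fun q : Polynomial k => q.coeff (2 * m)) e
  simp only [Polynomial.comp_C_mul_X_coeff, Polynomial.coeff_C_mul, coeff_legendreCubic_pow] at h1
  have h2 : (P ^ m).coeff (2 * m) = ((P ^ m).comp (X + Polynomial.C b)).coeff (2 * m) := by
    have := coeff_comp_add (P ^ m) hdeg b
    rw [show ℓ - 1 = 2 * m by omega] at this
    exact this.symm
  rw [← hP, h2]
  refine mul_right_cancel₀ (pow_ne_zero (2 * m) hδ0) (h1.trans ?_)
  rw [← pow_mul]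
  ring

end Poly

/-! ### The series -/

variable {O : ValuationSubring ℂ} {ℓ N : ℕ} [NeZero N] {h : ℕ}

variable (O N) in
/-- An integer series in `q` among the integral series in `q ^ (1 / N)`. -/
def intSer (B : PowerSeries ℤ) : intL O :=
  ⟨ofPowerSeries ℤ ℂ ((PowerSeries.expand N (NeZero.ne N) B).map (Int.castRingHom ℂ)),
    mem_intL.2 fun i => by
      rcases lt_or_ge i 0 with hi | hi
      · rw [ModularCurve.ofPowerSeries_coeff_of_neg _ hi, map_zero]
        exact zero_le
      obtain ⟨M, rfl⟩ := Int.eq_ofNat_of_zero_le hi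
      rw [HahnSeries.ofPowerSeries_apply_coeff, PowerSeries.coeff_map]
      exact FA.KlingenIntegral.val_intCast_le _⟩

theorem redL_intSer (B : PowerSeries ℤ) :
    redL O (intSer O N B) = ofPowerSeries ℤ (resField O)
      ((PowerSeries.expand N (NeZero.ne N) B).map (Int.castRingHom (resField O))) := by
  ext i
  rcases lt_or_ge i 0 with hi | hi
  · rw [coeff_redL _ i 0 (by simp [intSer, ModularCurve.ofPowerSeries_coeff_of_neg _ hi]),
      map_zero, ModularCurve.ofPowerSeries_coeff_of_neg _ hi]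
  obtain ⟨M, rfl⟩ := Int.eq_ofNat_of_zero_le hi
  rw [coeff_redL _ _ ((PowerSeries.coeff M (PowerSeries.expand N (NeZero.ne N) B) : ℤ) : O)
      (by
        show _ = (ofPowerSeries ℤ ℂ _).coeff _
        rw [HahnSeries.ofPowerSeries_apply_coeff, PowerSeries.coeff_map, eq_intCast]
        rfl),
    HahnSeries.ofPowerSeries_apply_coeff, PowerSeries.coeff_map, map_intCast]
  rfl

/-- A series in `q` as an expansion in `q ^ (1 / N)`. -/
theorem hasExp_of_hasQ {f : ℍ → ℂ} {A : PowerSeries ℂ} (hA : FA.Eis.HasQ (N : ℝ) f A) :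
    HasExp (qp N) f (ofPowerSeries ℤ ℂ A) := fun z => by
  rw [← Function.Injective.hasSum_iff (g := fun n : ℕ => (n : ℤ)) Nat.cast_injective fun m hm => by
    rw [ModularCurve.ofPowerSeries_coeff_of_neg _ (not_le.1 fun hle =>
      hm ⟨m.toNat, Int.toNat_of_nonneg hle⟩), zero_mul]]
  refine (hA z).congr_fun fun n => ?_
  simp [qp]

theorem hasExp_intSer {f : ℍ → ℂ} {B : PowerSeries ℤ}
    (hB : FA.Eis.HasQ 1 f (B.map (Int.castRingHom ℂ))) :
    HasExp (qp N) f (intSer O N B : LaurentSeries ℂ) := by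
  refine hasExp_of_hasQ ?_
  rw [PowerSeries.map_expand]
  exact FA.KlingenIntegral.hasQ_expand (NeZero.ne N) hB

variable (hN : N = 2 * h) (hp : GoodPrime O ℓ N)
include hp

/-- An abscissa at infinity among the integral series. -/
def xI (v : ℤ × ℤ) (hv : IsVec N v) : intL O :=
  ⟨xS N v, xS_mem hp.prime hp.small hp.five hp.coprime hv⟩

/-- The difference of the abscissae of two half periods. -/
def deltaI : intL O := xI hp (tA h) (isVec_tA hN) - xI hp (tB h) (isVec_tB hN)

theorem deltaI_ne_zero : redL O (deltaI hN hp) ≠ 0 := by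
  obtain ⟨T, hT⟩ := hp.unit (isVec_tA hN) (isVec_tB hN) (apart_ab hN)
  have e : liftL O (deltaI hN hp) = T :=
    coeffMap_subtype_injective ((coeMap_liftL _).trans hT.symm)
  rw [redL, RingHom.comp_apply, RingEquiv.toRingHom_eq_coe, RingEquiv.coe_toRingHom, e]
  exact (T.isUnit.map _).ne_zero

/-- The elementary symmetric functions of the three abscissae. -/
theorem sym_series : xI hp (tA h) (isVec_tA hN) + xI hp (tB h) (isVec_tB hN) +
      xI hp (tC h) (isVec_tC hN) = 0 ∧
    48 * (xI hp (tA h) (isVec_tA hN) * xI hp (tB h) (isVec_tB hN) +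
      xI hp (tB h) (isVec_tB hN) * xI hp (tC h) (isVec_tC hN) +
      xI hp (tC h) (isVec_tC hN) * xI hp (tA h) (isVec_tA hN)) =
        -intSer O N FA.Tau.eFourInt ∧
    864 * (xI hp (tA h) (isVec_tA hN) * xI hp (tB h) (isVec_tB hN) *
      xI hp (tC h) (isVec_tC hN)) = -intSer O N FA.Tau.eSixInt := by
  have hA := hasExp_xS (isVec_tA hN)
  have hB := hasExp_xS (isVec_tB hN)
  have hC := hasExp_xS (isVec_tC hN)
  have hq := qp_ne_zero N
  have h4 : HasExp (qp N) ⇑ModularForm.E₄ (intSer O N FA.Tau.eFourInt : LaurentSeries ℂ) :=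
    hasExp_intSer FA.Tau.hasQ_eFour
  have h6 : HasExp (qp N) ⇑ModularForm.E₆ (intSer O N FA.Tau.eSixInt : LaurentSeries ℂ) :=
    hasExp_intSer FA.Tau.hasQ_eSix
  have h48 := hasExp_C (T := qp N) (48 : ℂ)
  have h864 := hasExp_C (T := qp N) (864 : ℂ)
  have hx : ∀ (v : ℤ × ℤ) (τ : ℍ), xVal N v.1 v.2 τ = wpAt N τ v / tpi ^ 2 := fun _ _ => rfl
  refine ⟨Subtype.ext ?_, Subtype.ext ?_, Subtype.ext ?_⟩
  · show xS N (tA h) + xS N (tB h) + xS N (tC h) = 0
    refine HasExp.unique (covers_qp N) ((hA.add hB).add hC) (hasExp_zero.congr (funext fun τ => ?_))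
    simp only [Pi.zero_apply, Pi.add_apply, hx]
    rw [← add_div, ← add_div, (half_sums τ hN).1, zero_div]
  · push_cast
    show (48 : LaurentSeries ℂ) * (xS N (tA h) * xS N (tB h) + xS N (tB h) * xS N (tC h) +
      xS N (tC h) * xS N (tA h)) = -(intSer O N FA.Tau.eFourInt : LaurentSeries ℂ)
    rw [← map_ofNat (HahnSeries.C : ℂ →+* LaurentSeries ℂ) 48]
    refine HasExp.unique (covers_qp N) (h48.mul hq (((hA.mul hq hB).add (hB.mul hq hC)).add
      (hC.mul hq hA))) (h4.neg.congr (funext fun τ => ?_))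
    simp only [Pi.neg_apply, Pi.add_apply, Pi.mul_apply, hx]
    have e := (half_sums τ hN).2.1
    rw [g₂_latPair] at e
    field_simp [tpi_ne_zero]
    linear_combination -12 * e
  · push_cast
    show (864 : LaurentSeries ℂ) * (xS N (tA h) * xS N (tB h) * xS N (tC h)) =
      -(intSer O N FA.Tau.eSixInt : LaurentSeries ℂ)
    rw [← map_ofNat (HahnSeries.C : ℂ →+* LaurentSeries ℂ) 864]
    refine HasExp.unique (covers_qp N) (h864.mul hq ((hA.mul hq hB).mul hq hC))
      (h6.neg.congr (funext fun τ => ?_))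
    simp only [Pi.neg_apply, Pi.mul_apply, hx]
    have e := (half_sums τ hN).2.2
    rw [g₃_latPair] at e
    field_simp [tpi_ne_zero]
    linear_combination 216 * e

/-- **The Hasse invariant at infinity.** -/
theorem hasse_infty {m : ℕ} (hm : ℓ = 2 * m + 1) :
    redL O (deltaI hN hp) ^ m * ((-1) ^ m *
      (hPoly m (resField O)).eval₂ HahnSeries.C (redFun O N (lamB hN hp))) = 1 := by
  have := Fact.mk hp.prime
  have : CharP (resField O) ℓ := FA.KlingenIntegral.charP_residue hp.prime hp.small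
  have : CharP (LaurentSeries (resField O)) ℓ :=
    charP_of_injective_ringHom (HahnSeries.C : resField O →+* LaurentSeries (resField O)).injective ℓ
  obtain ⟨hs1, hs2, hs3⟩ := sym_series hN hp
  obtain ⟨a, ha⟩ : ∃ a, a = redL O (xI hp (tA h) (isVec_tA hN)) := ⟨_, rfl⟩
  obtain ⟨b, hb⟩ : ∃ b, b = redL O (xI hp (tB h) (isVec_tB hN)) := ⟨_, rfl⟩
  obtain ⟨c, hc⟩ : ∃ c, c = redL O (xI hp (tC h) (isVec_tC hN)) := ⟨_, rfl⟩
  have hd : redL O (deltaI hN hp) = a - b := by rw [deltaI, map_sub, ha, hb]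
  have hab : a - b ≠ 0 := hd ▸ deltaI_ne_zero hN hp
  have hlam : redFun O N (lamB hN hp) = (c - b) / (a - b) := by
    rw [eq_div_iff hab, ← hd, hb, hc, ← map_sub]
    show redL O ⟨cuspSer 1 (lamB hN hp : rN N (⊤ : Subfield ℂ)), _⟩ * _ = _
    rw [← map_mul]
    refine congrArg (redL O) (Subtype.ext ?_)
    show cuspSer 1 (xv hN top_zeta (tC h) (isVec_tC hN)) * (xS N (tA h) - xS N (tB h)) =
      xS N (tC h) - xS N (tB h)
    rw [xv, cuspSer_ratHol, vmul_one, vmul_one, vmul_one, mul_assoc, inv_mul_cancel₀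
      (hp.unit (isVec_tA hN) (isVec_tB hN) (apart_ab hN)).ne_zero, mul_one]
  -- the ring map out of the polynomials in `E₄, E₆`
  obtain ⟨Φ, hΦ⟩ : ∃ Φ : MvPolynomial (Fin 2) (ZMod ℓ) →+* LaurentSeries (resField O),
      Φ = (ofPowerSeries ℤ (resField O)).comp (((PowerSeries.expand N (NeZero.ne N)).toRingHom.comp
        (PowerSeries.map (FA.KlingenIntegral.redHom hp.prime hp.small))).comp
          (FA.SwinnertonDyer.phi ℓ).toRingHom) := ⟨_, rfl⟩
  have hcast : (FA.KlingenIntegral.redHom hp.prime hp.small).comp (Int.castRingHom (ZMod ℓ)) =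
      Int.castRingHom (resField O) := RingHom.ext_int _ _
  have hΦ0 : Φ (MvPolynomial.X 0) = redL O (intSer O N FA.Tau.eFourInt) := by
    rw [hΦ, redL_intSer, PowerSeries.map_expand, ← hcast]
    simp [FA.SwinnertonDyer.phi, FA.SwinnertonDyer.e4, PowerSeries.map_comp]
  have hΦ1 : Φ (MvPolynomial.X 1) = redL O (intSer O N FA.Tau.eSixInt) := by
    rw [hΦ, redL_intSer, PowerSeries.map_expand, ← hcast]
    simp [FA.SwinnertonDyer.phi, FA.SwinnertonDyer.e6, PowerSeries.map_comp]
  have hC : ∀ x : ZMod ℓ, Φ (MvPolynomial.C x⁻¹) = (Φ (MvPolynomial.C x))⁻¹ := fun x =>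
    map_inv₀ (Φ.comp MvPolynomial.C) x
  have hnum : ∀ n : ℕ, n ≠ 0 → (n.primeFactors ⊆ {2, 3}) →
      (n : LaurentSeries (resField O)) ≠ 0 := fun n hn hsub e => by
    rw [CharP.cast_eq_zero_iff (LaurentSeries (resField O)) ℓ] at e
    have := hsub (Nat.mem_primeFactors.2 ⟨hp.prime, e, hn⟩)
    have := hp.five
    simp at *
    omega
  have h48 : (48 : LaurentSeries (resField O)) ≠ 0 := by
    exact_mod_cast hnum 48 (by norm_num) (by decide +kernel)
  have h864 : (864 : LaurentSeries (resField O)) ≠ 0 := by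
    exact_mod_cast hnum 864 (by norm_num) (by decide +kernel)
  have e1 : a + b + c = 0 := by
    rw [ha, hb, hc, ← map_add, ← map_add, hs1, map_zero]
  have e2 : (48 : LaurentSeries (resField O)) * (a * b + b * c + c * a) =
      -Φ (MvPolynomial.X 0) := by
    rw [hΦ0, ← map_neg, ← hs2, ha, hb, hc]
    simp only [map_mul, map_add, map_ofNat]
  have e3 : (864 : LaurentSeries (resField O)) * (a * b * c) = -Φ (MvPolynomial.X 1) := by
    rw [hΦ1, ← map_neg, ← hs3, ha, hb, hc]
    simp only [map_mul, map_ofNat]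
  have hcub : (Polynomial.X ^ 3 + Polynomial.C (-MvPolynomial.C ((48 : ZMod ℓ)⁻¹) *
      MvPolynomial.X 0) * Polynomial.X + Polynomial.C (MvPolynomial.C ((864 : ZMod ℓ)⁻¹) *
        MvPolynomial.X 1) : Polynomial (MvPolynomial (Fin 2) (ZMod ℓ))).map Φ =
      (X - Polynomial.C a) * (X - Polynomial.C b) * (X - Polynomial.C c) := by
    simp only [Polynomial.map_add, Polynomial.map_mul, Polynomial.map_pow, Polynomial.map_X,
      Polynomial.map_C, map_mul, map_neg, Polynomial.map_neg, hC, map_ofNat]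
    have hA : (Polynomial.C (48 : LaurentSeries (resField O))⁻¹ *
        Polynomial.C (Φ (MvPolynomial.X 0)) : Polynomial (LaurentSeries (resField O))) =
          -(Polynomial.C a * Polynomial.C b + Polynomial.C b * Polynomial.C c +
            Polynomial.C c * Polynomial.C a) := by
      simp only [← map_mul, ← map_add, ← map_neg]
      exact congrArg Polynomial.C (by field_simp; linear_combination e2)
    have hB : (Polynomial.C (864 : LaurentSeries (resField O))⁻¹ *
        Polynomial.C (Φ (MvPolynomial.X 1)) : Polynomial (LaurentSeries (resField O))) =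
          -(Polynomial.C a * Polynomial.C b * Polynomial.C c) := by
      simp only [← map_mul, ← map_neg]
      exact congrArg Polynomial.C (by field_simp; linear_combination e3)
    have e1' : (Polynomial.C a : Polynomial (LaurentSeries (resField O))) + Polynomial.C b +
        Polynomial.C c = 0 := by rw [← map_add, ← map_add, e1, map_zero]
    linear_combination (-X) * hA + hB + X ^ 2 * e1'
  have key := congrArg Φ (show (FA.HasseEis.hassePoly ℓ : MvPolynomial (Fin 2) (ZMod ℓ)) =
    FA.HasseEis.hassePoly ℓ from rfl)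
  conv_lhs at key => rw [hΦ]
  simp only [RingHom.comp_apply, AlgHom.toRingHom_eq_coe, RingHom.coe_coe,
    FA.SwinnertonDyer.phi_hassePoly hp.five, map_one] at key
  rw [FA.HasseEis.hassePoly, ← Polynomial.coeff_map, Polynomial.map_pow, hcub,
    show ℓ / 2 = m by omega, show ℓ - 1 = 2 * m by omega, coeff_cubic_pow hm (sub_ne_zero.1 hab),
    ← hPoly_map (HahnSeries.C : resField O →+* LaurentSeries (resField O)),
    Polynomial.eval_map, ← hlam, ← hd] at key
  exact key.symm

end FA.WeightLevel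

end
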