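import Fermat.Agent.WeightLevel.Embedding
import Mathlib.RingTheory.AdicCompletion.Completeness
import Mathlib.RingTheory.Henselian

/-!
# The abscissae at a point of the special fibre

The orbit polynomial of an abscissa stays separable at every `r ≠ 0, 1`, since differences of
conjugate abscissae are units; by Hensel's lemma the abscissae land in `k⟦t⟧`.
-/

set_option autoImplicit false
set_option linter.unusedSectionVars false
set_option linter.style.haveILetI false
set_option synthInstance.maxHeartbeats 100000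

noncomputable section

namespace FA.WeightLevel

open UpperHalfPlane hiding I
open CongruenceSubgroup HahnSeries ModularCurve FA.Level FA.ModField FA.Mazur.Wp FA.Carayol
open Polynomial (X)
open scoped MatrixGroups Classical

variable {O : ValuationSubring ℂ} {ℓ N : ℕ} [NeZero N] {h : ℕ}
variable (hN : N = 2 * h) (hp : GoodPrime O ℓ N)
include hp

omit hp in
/-- Translations permute an orbit polynomial. -/
theorem map_orbit (x : intFun O N) {τ : intFun O N →+* intFun O N} (hτ : τ ∈ gal O N) :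
    (∏ y ∈ (gal O N).image (fun σ : intFun O N →+* intFun O N => σ x), (X - Polynomial.C y)).map τ =
      ∏ y ∈ (gal O N).image (fun σ : intFun O N →+* intFun O N => σ x), (X - Polynomial.C y) := by
  obtain ⟨s, hs⟩ : ∃ s, s = (gal O N).image fun σ => σ x := ⟨_, rfl⟩
  rw [← hs]
  have hmem : ∀ y ∈ s, τ y ∈ s := fun y hy => by
    rw [hs, Finset.mem_image] at hy ⊢
    obtain ⟨σ, hσ, rfl⟩ := hy
    exact ⟨τ.comp σ, comp_mem_gal hσ hτ, rfl⟩
  rw [Polynomial.map_prod]
  simp only [Polynomial.map_sub, Polynomial.map_X, Polynomial.map_C]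
  exact Finset.prod_nbij τ hmem (fun a _ b _ e => injective_of_mem_gal hτ e)
    (Finset.surjOn_of_injOn_of_card_le _ hmem (fun a _ b _ e => injective_of_mem_gal hτ e) le_rfl)
    fun y _ => rfl

omit hp in
/-- The inverse on `k⟦t⟧`. -/
theorem exists_lift_hom {R : Type*} [CommRing R] (g : R →+* BigField O)
    (hg : ∀ b, g b ∈ (incl O).range) :
    ∃ θ : R →+* PowerSeries (resField O), (incl O).comp θ = g := by
  choose θ hθ using hg
  refine ⟨{ toFun := θ, map_one' := ?_, map_mul' := fun a b => ?_, map_zero' := ?_,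
            map_add' := fun a b => ?_ }, RingHom.ext hθ⟩
  all_goals refine incl_injective (O := O) ?_
  · rw [hθ, map_one, map_one]
  · rw [map_mul, hθ, hθ, hθ, map_mul]
  · rw [hθ, map_zero, map_zero]
  · rw [map_add, hθ, hθ, hθ, map_add]

omit hp in
/-- A polynomial over `k⟦t⟧` with separable reduction splits. -/
theorem exists_split {k : Type*} [Field k] [IsAlgClosed k] {Pt : Polynomial (PowerSeries k)}
    (hPtm : Pt.Monic) (hsep : (Pt.map PowerSeries.constantCoeff).Separable) :
    ∃ R : Finset (PowerSeries k), Pt = ∏ y ∈ R, (X - Polynomial.C y) := by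
  obtain ⟨R0, hR0⟩ : ∃ R0, R0 = (Pt.map PowerSeries.constantCoeff).roots.toFinset := ⟨_, rfl⟩
  have e : ∀ (Q : Polynomial (PowerSeries k)) (c : k),
      PowerSeries.constantCoeff (Q.eval (PowerSeries.C c)) =
        (Q.map PowerSeries.constantCoeff).eval c := fun Q c => by
    rw [Polynomial.eval_map, Polynomial.eval, Polynomial.hom_eval₂, RingHom.comp_id,
      PowerSeries.constantCoeff_C]
  have hlifts : ∀ c ∈ R0, ∃ y : PowerSeries k, Pt.IsRoot y ∧
      PowerSeries.constantCoeff y = c := fun c hc => by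
    rw [hR0, Multiset.mem_toFinset, Polynomial.mem_roots (hPtm.map _).ne_zero] at hc
    obtain ⟨a, b, hab⟩ := hsep
    have hd : (Pt.derivative.map PowerSeries.constantCoeff).eval c ≠ 0 := fun h0 => by
      have h1 := congrArg (Polynomial.eval c) hab
      rw [Polynomial.eval_add, Polynomial.eval_mul, Polynomial.eval_mul, hc.eq_zero, mul_zero,
        Polynomial.derivative_map, h0, mul_zero, add_zero, Polynomial.eval_one] at h1
      exact zero_ne_one h1
    obtain ⟨y, hy, hyc⟩ := HenselianRing.is_henselian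
      (I := Ideal.span {(PowerSeries.X : PowerSeries k)}) Pt hPtm (PowerSeries.C c)
      (Ideal.mem_span_singleton.2 (PowerSeries.X_dvd_iff.2 ((e Pt c).trans hc)))
      (IsUnit.map _ (by
        rw [PowerSeries.isUnit_iff_constantCoeff, e, isUnit_iff_ne_zero]
        exact hd))
    refine ⟨y, hy, ?_⟩
    rw [Ideal.mem_span_singleton, PowerSeries.X_dvd_iff, map_sub, PowerSeries.constantCoeff_C,
      sub_eq_zero] at hyc
    exact hyc
  choose! Y hY hYc using hlifts
  have hinj : Set.InjOn Y ↑R0 := fun c hc c' hc' e => by rw [← hYc c hc, ← hYc c' hc', e]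
  have hcard : (R0.image Y).card = Pt.natDegree := by
    rw [Finset.card_image_of_injOn hinj, hR0, Multiset.toFinset_card_of_nodup
      (Polynomial.nodup_roots hsep), IsAlgClosed.card_roots_eq_natDegree, hPtm.natDegree_map]
  have heq : (R0.image Y).val = Pt.roots := Multiset.eq_of_le_of_card_le
    ((Multiset.le_iff_subset (R0.image Y).nodup).2 fun y hy => by
      obtain ⟨c, hc, rfl⟩ := Finset.mem_image.1 (show y ∈ R0.image Y from hy)
      exact (Polynomial.mem_roots hPtm.ne_zero).2 (hY c hc))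
    ((Polynomial.card_roots' Pt).trans hcard.ge)
  refine ⟨R0.image Y, ?_⟩
  conv_lhs => rw [← Polynomial.prod_multiset_X_sub_C_of_monic_of_roots_card_eq hPtm
    (le_antisymm (Polynomial.card_roots' Pt) (heq ▸ hcard.ge))]
  rw [← heq]
  rfl

omit hp in
theorem dvd_one_sub_prod {R ι : Type*} [CommRing R] {s : Finset ι} {f : ι → R} (P d : R)
    (h : ∀ i ∈ s, P ∣ 1 - f i * d) : P ∣ 1 - (∏ i ∈ s, f i) * d ^ s.card := by
  induction s using Finset.induction with
  | empty => simp
  | insert i s hi ih =>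
    rw [Finset.prod_insert hi, Finset.card_insert_of_notMem hi,
      show (1 : R) - (f i * ∏ j ∈ s, f j) * d ^ (s.card + 1) =
        (1 - f i * d) + f i * d * (1 - (∏ j ∈ s, f j) * d ^ s.card) by ring]
    exact dvd_add (h i (Finset.mem_insert_self i s))
      ((ih fun j hj => h j (Finset.mem_insert_of_mem hj)).mul_left _)

omit hp in
/-- A separable polynomial with fixed coefficients stays separable over the fixed ring. -/
theorem exists_fixed_poly {R : Type*} [CommRing R] (G : Finset (R →+* R))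
    (hG : ∀ τ ∈ G, Set.BijOn (fun σ : R →+* R => τ.comp σ) (↑G : Set (R →+* R)) ↑G)
    (F : Subring R) (hF : ∀ x, (∀ σ ∈ G, σ x = x) → x ∈ F) {P : Polynomial R} (hPm : P.Monic)
    (hPτ : ∀ τ ∈ G, P.map τ = P) (hsep : P.Separable) :
    ∃ Pf Wf : Polynomial F, Pf.Monic ∧ Pf.map F.subtype = P ∧
      Pf ∣ 1 - Wf * Pf.derivative ^ G.card := by
  obtain ⟨a, b, hab⟩ := hsep
  obtain ⟨W, hW⟩ : ∃ W : Polynomial R, W = ∏ τ ∈ G, b.map τ := ⟨_, rfl⟩
  have hWτ : ∀ τ ∈ G, W.map τ = W := fun τ hτ => by
    rw [hW, Polynomial.map_prod]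
    exact Finset.prod_nbij (fun σ => τ.comp σ) (fun σ hσ => (hG τ hτ).mapsTo hσ)
      (hG τ hτ).injOn (hG τ hτ).surjOn fun σ _ => by rw [Polynomial.map_map]
  have hPd : ∀ τ ∈ G, P.derivative.map τ = P.derivative := fun τ hτ => by
    rw [← Polynomial.derivative_map, hPτ τ hτ]
  have hdvd : P ∣ 1 - W * P.derivative ^ G.card := by
    rw [hW]
    refine dvd_one_sub_prod _ _ fun τ hτ => ⟨a.map τ, ?_⟩
    have h1 := congrArg (Polynomial.map τ) hab
    rw [Polynomial.map_add, Polynomial.map_mul, Polynomial.map_mul, Polynomial.map_one, hPτ τ hτ,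
      hPd τ hτ] at h1
    linear_combination -h1
  have hlift : ∀ Q : Polynomial R, (∀ τ ∈ G, Q.map τ = Q) →
      Q ∈ Polynomial.lifts F.subtype := fun Q hQ =>
    (Polynomial.lifts_iff_coeff_lifts _).2 fun n => ⟨⟨Q.coeff n, hF _ fun τ hτ => by
      rw [← Polynomial.coeff_map, hQ τ hτ]⟩, rfl⟩
  rcases subsingleton_or_nontrivial R with hR | hR
  · exact ⟨1, 0, Polynomial.monic_one, Subsingleton.elim _ _, one_dvd _⟩
  obtain ⟨Pf, hPf, -, hPfm⟩ := Polynomial.lifts_and_degree_eq_and_monic (hlift P hPτ) hPm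
  obtain ⟨Wf, hWf⟩ := hlift W hWτ
  rw [Polynomial.coe_mapRingHom] at hWf
  refine ⟨Pf, Wf, hPfm, hPf, ?_⟩
  rw [← Polynomial.modByMonic_eq_zero_iff_dvd hPfm]
  apply Polynomial.map_injective F.subtype Subtype.val_injective
  rw [Polynomial.map_zero, Polynomial.map_modByMonic _ hPfm, Polynomial.map_sub,
    Polynomial.map_one, Polynomial.map_mul, Polynomial.map_pow, ← Polynomial.derivative_map, hPf,
    hWf, Polynomial.modByMonic_eq_zero_iff_dvd hPm]
  exact hdvd

/-- Differences in an orbit of an abscissa are units. -/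
theorem separable_orbit (v : ℤ × ℤ) (hv : IsVec N v) :
    (∏ y ∈ (gal O N).image (fun σ : intFun O N →+* intFun O N => σ (xB hN hp v hv)),
      (X - Polynomial.C y)).Separable :=
  Polynomial.separable_prod' (fun a ha b hb hab => by
      rw [Finset.mem_image] at ha hb
      obtain ⟨σ, hσ, rfl⟩ := ha
      obtain ⟨σ', hσ', rfl⟩ := hb
      obtain ⟨γ, hγ, rfl⟩ := mem_gal.1 hσ
      obtain ⟨γ', hγ', rfl⟩ := mem_gal.1 hσ'
      rw [act_xB hN hp hγ, act_xB hN hp hγ'] at hab ⊢
      exact Polynomial.isCoprime_X_sub_C_of_isUnit_sub (isUnit_xB_sub hN hp hab))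
    fun a _ => Polynomial.separable_X_sub_C

/-- The orbit polynomial of an abscissa, over the invariants. -/
theorem exists_orbit_poly (v : ℤ × ℤ) (hv : IsVec N v) :
    ∃ Pf Wf : Polynomial (fix O N), Pf.Monic ∧
      (Pf.map (fix O N).subtype).eval (xB hN hp v hv) = 0 ∧
      Pf ∣ 1 - Wf * Pf.derivative ^ (gal O N).card := by
  obtain ⟨Pf, Wf, h1, h2, h3⟩ := exists_fixed_poly (gal O N) (fun τ hτ => bijOn_comp hτ) (fix O N)
    (fun x hx => mem_fix.2 hx) (Polynomial.monic_prod_X_sub_C _ _)
    (fun τ hτ => map_orbit (xB hN hp v hv) hτ) (separable_orbit hN hp v hv)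
  refine ⟨Pf, Wf, h1, ?_, h3⟩
  rw [h2, Polynomial.eval_prod]
  exact Finset.prod_eq_zero (Finset.mem_image.2 ⟨_, id_mem_gal, rfl⟩) (by simp)

/-- **The abscissae land in `k⟦t⟧`.** -/
theorem xB_mem_range {ψ : intFun O N →+* BigField O} (hψ : ∀ b ∈ fix O N, ψ b ∈ (incl O).range)
    (v : ℤ × ℤ) (hv : IsVec N v) : ψ (xB hN hp v hv) ∈ (incl O).range := by
  have : IsAlgClosed (resField O) := FA.CurveRed.isAlgClosed_residueField O
  obtain ⟨Pf, Wf, hPfm, h0, hdvd⟩ := exists_orbit_poly hN hp v hv
  obtain ⟨θ, hθ⟩ := exists_lift_hom (ψ.comp (fix O N).subtype) fun b => hψ b b.2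
  have hsep : ((Pf.map θ).map PowerSeries.constantCoeff).Separable := by
    rw [Polynomial.map_map]
    obtain ⟨Q, hQ⟩ := Polynomial.map_dvd
      ((PowerSeries.constantCoeff : PowerSeries (resField O) →+* resField O).comp θ) hdvd
    rw [Polynomial.map_sub, Polynomial.map_one, Polynomial.map_mul, Polynomial.map_pow,
      ← Polynomial.derivative_map] at hQ
    exact (IsCoprime.pow_right_iff (Finset.card_pos.2 ⟨_, id_mem_gal⟩)).1
      ⟨Q, Wf.map _, by linear_combination -hQ⟩
  obtain ⟨R, hR⟩ := exists_split (hPfm.map θ) hsep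
  have h1 := congrArg ψ h0
  rw [map_zero, ← Polynomial.eval₂_at_apply, ← Polynomial.eval_map, Polynomial.map_map, ← hθ,
    ← Polynomial.map_map, hR, Polynomial.map_prod, Polynomial.eval_prod,
    Finset.prod_eq_zero_iff] at h1
  obtain ⟨y, -, hy⟩ := h1
  simp only [Polynomial.map_sub, Polynomial.map_X, Polynomial.map_C, Polynomial.eval_sub,
    Polynomial.eval_X, Polynomial.eval_C] at hy
  exact ⟨y, (sub_eq_zero.1 hy).symm⟩

end FA.WeightLevel

end
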