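import Fermat.Agent.WeightLevel.Units
import Fermat.Agent.Carayol.Curve.Field
import Fermat.Agent.Carayol.Field.Root

/-!
# The functions of level `N` with integral expansions at every cusp

They form a ring with an action of `Γ(2)` whose invariants are, after multiplication by powers of
`λ` and `1 - λ`, polynomials in `λ` with integral coefficients. The differences of distinct
conjugate abscissae are units, so everything is a combination of the abscissae with invariant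
coefficients.
-/

set_option autoImplicit false
set_option linter.unusedSectionVars false
set_option linter.style.haveILetI false

noncomputable section

namespace FA.WeightLevel

open UpperHalfPlane hiding I
open CongruenceSubgroup HahnSeries ModularCurve FA.Level FA.ModField FA.Mazur.Wp FA.Carayol
open scoped MatrixGroups Manifold

variable {N : ℕ} [NeZero N]

theorem top_zeta (b : ℤ) : eta N b ∈ (⊤ : Subfield ℂ) := Subfield.mem_top _

/-- The expansion of a translate. -/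
def cuspSer (g : SL(2, ℤ)) : rN N (⊤ : Subfield ℂ) →+* LaurentSeries ℂ :=
  ((coeffMap (⊤ : Subfield ℂ).subtype).comp rSer).comp (rAct g)

theorem cuspSer_spec (g : SL(2, ℤ)) (f : rN N (⊤ : Subfield ℂ)) :
    HasExp (qp N) (fun z => ((f : holSub) : ℍ → ℂ) (g • z)) (cuspSer g f) :=
  rSer_spec (rAct g f)

theorem cuspSer_eq {g : SL(2, ℤ)} {f : rN N (⊤ : Subfield ℂ)} {S : LaurentSeries ℂ}
    (h : HasExp (qp N) (fun z => ((f : holSub) : ℍ → ℂ) (g • z)) S) : cuspSer g f = S :=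
  HasExp.unique (covers_qp N) (cuspSer_spec g f) h

theorem cuspSer_rAct (g δ : SL(2, ℤ)) (f : rN N (⊤ : Subfield ℂ)) :
    cuspSer g (rAct δ f) = cuspSer (δ * g) f := by
  simp only [cuspSer, RingHom.comp_apply, rAct_mul]

theorem cuspSer_rC (g : SL(2, ℤ)) (c : (⊤ : Subfield ℂ)) :
    cuspSer g (rC (N := N) c) = HahnSeries.C (c : ℂ) := by
  refine cuspSer_eq ?_
  exact hasExp_C (c : ℂ)

theorem cuspSer_ratHol {v a b : ℤ × ℤ} (hv : IsVec N v) (ha : IsVec N a) (hb : IsVec N b)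
    (hab : Apart N a b) (g : SL(2, ℤ)) :
    cuspSer g (ratHol (⊤ : Subfield ℂ) top_zeta hv ha hb hab) =
      (xS N (vmul v g) - xS N (vmul b g)) * (xS N (vmul a g) - xS N (vmul b g))⁻¹ := by
  refine cuspSer_eq ?_
  have hne : ∀ τ, (xVal N (vmul a g).1 (vmul a g).2 - xVal N (vmul b g).1 (vmul b g).2) τ ≠ 0 :=
    fun τ => sub_ne_zero.2 (xVal_ne (ha.vmul g) (hb.vmul g) (hab.vmul g) τ)
  refine (((hasExp_xS (hv.vmul g)).sub (hasExp_xS (hb.vmul g))).mul (qp_ne_zero N)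
    (exp_inv ((hasExp_xS (ha.vmul g)).sub (hasExp_xS (hb.vmul g))) hne)).congr (funext fun τ => ?_)
  rw [coe_ratHol, ratFun_smul]
  simp [ratFun, div_eq_mul_inv]

variable (O : ValuationSubring ℂ)

/-- **Integral at every cusp.** -/
def intFun (N : ℕ) [NeZero N] : Subring (rN N (⊤ : Subfield ℂ)) :=
  ⨅ g : SL(2, ℤ), (intL O).comap (cuspSer g)

variable {O}

theorem mem_intFun {f : rN N (⊤ : Subfield ℂ)} :
    f ∈ intFun O N ↔ ∀ g, cuspSer g f ∈ intL O := by
  simp [intFun, Subring.mem_iInf]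

/-- A unit at every cusp without a zero has an inverse. -/
theorem isUnit_intFun {f : intFun O N}
    (hu : ∀ g, IntUnit O (cuspSer g (f : rN N (⊤ : Subfield ℂ))))
    (hne : ∀ z, ((((f : rN N (⊤ : Subfield ℂ))) : holSub) : ℍ → ℂ) z ≠ 0) : IsUnit f := by
  obtain ⟨F, hF⟩ : ∃ F : ℍ → ℂ, ∀ z, F z = ((((f : rN N (⊤ : Subfield ℂ))) : holSub) : ℍ → ℂ) z :=
    ⟨_, fun _ => rfl⟩
  have he : ∀ g : SL(2, ℤ), HasExp (qp N) (fun z => (F (g • z))⁻¹)
      (cuspSer g (f : rN N (⊤ : Subfield ℂ)))⁻¹ := fun g => by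
    have h := exp_inv (cuspSer_spec g (f : rN N (⊤ : Subfield ℂ))) fun z => hne _
    exact h.congr (funext fun z => by rw [hF])
  have hmd : MDiff fun z => (F z)⁻¹ := by
    have h := he 1
    simp only [one_smul] at h
    exact mdiff_of_exp h
  obtain ⟨r, hr⟩ : ∃ r : rN N (⊤ : Subfield ℂ), ∀ z, ((r : holSub) : ℍ → ℂ) z = (F z)⁻¹ :=
    ⟨⟨⟨_, hmd⟩, mem_rN_top (fun γ hγ z => by
      show (F (γ • z))⁻¹ = (F z)⁻¹
      rw [hF, hF, rN_invariant _ hγ]) fun g => ⟨_, he g⟩⟩, fun _ => rfl⟩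
  refine IsUnit.of_mul_eq_one ⟨r, mem_intFun.2 fun g => ?_⟩ (Subtype.ext (rN_ext fun z => ?_))
  · rw [cuspSer_eq ((he g).congr (funext fun z => (hr _).symm))]
    exact (hu g).inv.mem
  · rw [Subring.coe_mul, map_mul, Subring.coe_one, map_one]
    show _ * ((r : holSub) : ℍ → ℂ) z = 1
    rw [hr, hF]
    exact mul_inv_cancel₀ (hne z)

/-! ### The action -/

theorem rAct_eq_id {δ : SL(2, ℤ)} (hδ : δ ∈ Gamma N) (f : rN N (⊤ : Subfield ℂ)) : rAct δ f = f :=
  rN_ext fun z => rN_invariant f hδ z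

theorem rAct_neg_eq_id {δ : SL(2, ℤ)} (hδ : -δ ∈ Gamma N) (f : rN N (⊤ : Subfield ℂ)) :
    rAct δ f = f :=
  rN_ext fun z => by
    show ((f : holSub) : ℍ → ℂ) (δ • z) = _
    rw [← ModularGroup.SL_neg_smul δ z]
    exact rN_invariant f hδ z

theorem rAct_mem (γ : SL(2, ℤ)) {f : rN N (⊤ : Subfield ℂ)} (hf : f ∈ intFun O N) :
    rAct γ f ∈ intFun O N :=
  mem_intFun.2 fun g => by rw [cuspSer_rAct]; exact mem_intFun.1 hf _

variable (O) in
/-- Translation on the integral functions. -/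
def act (γ : SL(2, ℤ)) : intFun O N →+* intFun O N :=
  RingHom.codRestrict ((rAct γ).comp (intFun O N).subtype) (intFun O N) fun f => rAct_mem γ f.2

theorem coe_act (γ : SL(2, ℤ)) (f : intFun O N) :
    ((act O γ f : intFun O N) : rN N (⊤ : Subfield ℂ)) = rAct γ f := rfl

theorem act_act (γ δ : SL(2, ℤ)) (f : intFun O N) : act O δ (act O γ f) = act O (γ * δ) f :=
  Subtype.ext (by simp only [coe_act, rAct_mul])

theorem act_one (f : intFun O N) : act O 1 f = f := Subtype.ext (by rw [coe_act, Carayol.rAct_one])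

variable (O) in
/-- The translations by `Γ(2)`. -/
def galSet (N : ℕ) [NeZero N] : Set (intFun O N →+* intFun O N) := Set.range fun γ : Gamma 2 => act O (γ : SL(2, ℤ))

theorem finite_galSet : (galSet O N).Finite := by
  refine Set.Finite.subset (Set.finite_range fun i : SL(2, ℤ) ⧸ Gamma N =>
    act O (Quotient.out i) (N := N)) ?_
  rintro _ ⟨γ, rfl⟩
  refine ⟨QuotientGroup.mk (γ : SL(2, ℤ)), RingHom.ext fun f => ?_⟩
  obtain ⟨δ, hδ⟩ := QuotientGroup.mk_out_eq_mul (Gamma N) (γ : SL(2, ℤ))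
  show act O (Quotient.out _) f = act O _ f
  rw [hδ, ← act_act]
  exact Subtype.ext (by rw [coe_act]; exact rAct_eq_id δ.2 _)

variable (O) in
/-- The translations as a finite set. -/
def gal (N : ℕ) [NeZero N] : Finset (intFun O N →+* intFun O N) := finite_galSet.toFinset

theorem mem_gal {σ : intFun O N →+* intFun O N} :
    σ ∈ gal O N ↔ ∃ γ ∈ Gamma 2, act O γ = σ := by
  simp [gal, galSet]

theorem id_mem_gal : RingHom.id (intFun O N) ∈ gal O N :=
  mem_gal.2 ⟨1, one_mem _, RingHom.ext act_one⟩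

theorem comp_mem_gal {σ τ : intFun O N →+* intFun O N} (hσ : σ ∈ gal O N) (hτ : τ ∈ gal O N) :
    τ.comp σ ∈ gal O N := by
  obtain ⟨γ, hγ, rfl⟩ := mem_gal.1 hσ
  obtain ⟨δ, hδ, rfl⟩ := mem_gal.1 hτ
  exact mem_gal.2 ⟨γ * δ, mul_mem hγ hδ, RingHom.ext fun f => (act_act γ δ f).symm⟩

theorem exists_inverse {τ : intFun O N →+* intFun O N} (hτ : τ ∈ gal O N) :
    ∃ τ' ∈ gal O N, τ.comp τ' = RingHom.id _ ∧ τ'.comp τ = RingHom.id _ := by
  obtain ⟨δ, hδ, rfl⟩ := mem_gal.1 hτ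
  refine ⟨act O δ⁻¹, mem_gal.2 ⟨δ⁻¹, inv_mem hδ, rfl⟩, RingHom.ext fun f => ?_,
    RingHom.ext fun f => ?_⟩ <;>
    simp [act_act, act_one]

theorem injective_of_mem_gal {τ : intFun O N →+* intFun O N} (hτ : τ ∈ gal O N) :
    Function.Injective τ := fun a b h => by
  obtain ⟨τ', -, -, h'⟩ := exists_inverse hτ
  have h1 := congrArg τ' h
  rwa [← RingHom.comp_apply, ← RingHom.comp_apply, h'] at h1

/-- A translation permutes the translations. -/
theorem bijOn_comp {τ : intFun O N →+* intFun O N} (hτ : τ ∈ gal O N) :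
    Set.BijOn (fun σ : intFun O N →+* intFun O N => τ.comp σ)
      (↑(gal O N) : Set (intFun O N →+* intFun O N)) ↑(gal O N) := by
  obtain ⟨τ', hτ', h1, h2⟩ := exists_inverse hτ
  refine ⟨fun σ hσ => comp_mem_gal hσ hτ, fun σ _ σ' _ e => ?_, fun σ hσ =>
    ⟨τ'.comp σ, comp_mem_gal hσ hτ', ?_⟩⟩
  · have e' : τ'.comp (τ.comp σ) = τ'.comp (τ.comp σ') := congrArg τ'.comp e
    rwa [← RingHom.comp_assoc, ← RingHom.comp_assoc, h2, RingHom.id_comp, RingHom.id_comp] at e'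
  · show τ.comp (τ'.comp σ) = σ
    rw [← RingHom.comp_assoc, h1, RingHom.id_comp]

variable (O) in
/-- The invariants. -/
def fix (N : ℕ) [NeZero N] : Subring (intFun O N) :=
  ⨅ σ ∈ gal O N, RingHom.eqLocus σ (RingHom.id _)

theorem mem_fix {b : intFun O N} : b ∈ fix O N ↔ ∀ σ ∈ gal O N, σ b = b := by
  simp [fix, Subring.mem_iInf, RingHom.eqLocus]

theorem sum_mem_fix (b : intFun O N) : (∑ σ ∈ gal O N, σ b) ∈ fix O N :=
  mem_fix.2 fun τ hτ => by
    rw [map_sum]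
    exact Finset.sum_nbij (fun σ => τ.comp σ) (fun σ hσ => (bijOn_comp hτ).mapsTo hσ)
      (bijOn_comp hτ).injOn (bijOn_comp hτ).surjOn fun σ _ => rfl

theorem prod_mem_fix (b : intFun O N) : (∏ σ ∈ gal O N, σ b) ∈ fix O N :=
  mem_fix.2 fun τ hτ => by
    rw [map_prod]
    exact Finset.prod_nbij (fun σ => τ.comp σ) (fun σ hσ => (bijOn_comp hτ).mapsTo hσ)
      (bijOn_comp hτ).injOn (bijOn_comp hτ).surjOn fun σ _ => rfl

theorem inverse_mem_fix {b : intFun O N} (hb : b ∈ fix O N) {c : intFun O N} (h : b * c = 1) :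
    c ∈ fix O N :=
  mem_fix.2 fun σ hσ => by
    have h' := congrArg σ h
    rw [map_mul, map_one, mem_fix.1 hb σ hσ] at h'
    calc σ c = σ c * (b * c) := by rw [h, mul_one]
      _ = b * σ c * c := by ring
      _ = c := by rw [h', one_mul]

/-! ### The abscissae -/

variable {h : ℕ} (hN : N = 2 * h) {ℓ : ℕ}

/-- The standing hypotheses on the prime. -/
structure GoodPrime (O : ValuationSubring ℂ) (ℓ N : ℕ) : Prop where
  prime : ℓ.Prime
  small : O.valuation (ℓ : ℂ) < 1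
  five : 5 ≤ ℓ
  coprime : ¬ℓ ∣ N

variable (hp : GoodPrime O ℓ N)
include hp

theorem GoodPrime.unit {v w : ℤ × ℤ} (hv : IsVec N v) (hw : IsVec N w) (hvw : Apart N v w) :
    IntUnit O (xS N v - xS N w) :=
  diff_unit hp.prime hp.small hp.five hp.coprime hv hw hvw

theorem xv_mem (v : ℤ × ℤ) (hv : IsVec N v) : xv hN top_zeta v hv ∈ intFun O N :=
  mem_intFun.2 fun g => by
    rw [xv, cuspSer_ratHol]
    exact Subring.mul_mem _ (Subring.sub_mem _
      (xS_mem hp.prime hp.small hp.five hp.coprime (hv.vmul g))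
      (xS_mem hp.prime hp.small hp.five hp.coprime ((isVec_tB hN).vmul g)))
      (hp.unit ((isVec_tA hN).vmul g) ((isVec_tB hN).vmul g) ((apart_ab hN).vmul g)).inv.mem

/-- An abscissa among the integral functions. -/
def xB (v : ℤ × ℤ) (hv : IsVec N v) : intFun O N := ⟨xv hN top_zeta v hv, xv_mem hN hp v hv⟩

theorem act_xB {γ : SL(2, ℤ)} (hγ : γ ∈ Gamma 2) (v : ℤ × ℤ) (hv : IsVec N v) :
    act O γ (xB hN hp v hv) = xB hN hp (vmul v γ) (hv.vmul γ) := by
  refine Subtype.ext (rN_ext fun τ => ?_)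
  show ratFun N v (tA h) (tB h) (γ • τ) = ratFun N (vmul v γ) (tA h) (tB h) τ
  obtain ⟨e1, e2⟩ := xVal_vmul_two hN (K := (⊤ : Subfield ℂ)) top_zeta hγ τ
  rw [ratFun_smul]
  simp only [ratFun, e1, e2]

/-- Distinct abscissae differ by a unit. -/
theorem isUnit_xB_sub {v w : ℤ × ℤ} {hv : IsVec N v} {hw : IsVec N w}
    (hne : xB hN hp v hv ≠ xB hN hp w hw) : IsUnit (xB hN hp v hv - xB hN hp w hw) := by
  have hvw : Apart N v w := by
    by_contra hc
    refine hne (Subtype.ext (rN_ext fun τ => ?_))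
    show ratFun N v (tA h) (tB h) τ = ratFun N w (tA h) (tB h) τ
    rw [Apart, not_and_or] at hc
    have e : wpAt N τ v = wpAt N τ w := by
      rcases hc with hc | hc
      · exact (at_congr τ (not_not.1 hc).1 (not_not.1 hc).2).1
      · rw [(at_congr τ (v := v) (w := -w) (by simpa using (not_not.1 hc).1)
          (by simpa using (not_not.1 hc).2)).1, wpAt_neg]
    simp only [ratFun, show xVal N v.1 v.2 τ = xVal N w.1 w.2 τ from congrArg (· / tpi ^ 2) e]
  refine isUnit_intFun (fun g => ?_) fun τ => ?_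
  · rw [AddSubgroupClass.coe_sub, map_sub]
    show IntUnit O (cuspSer g (xv hN top_zeta v hv) - cuspSer g (xv hN top_zeta w hw))
    rw [xv, xv, cuspSer_ratHol, cuspSer_ratHol, ← sub_mul, sub_sub_sub_cancel_right]
    exact (hp.unit (hv.vmul g) (hw.vmul g) (hvw.vmul g)).mul
      (hp.unit ((isVec_tA hN).vmul g) ((isVec_tB hN).vmul g) ((apart_ab hN).vmul g)).inv
  · show ratFun N v (tA h) (tB h) τ - ratFun N w (tA h) (tB h) τ ≠ 0
    rw [ratFun, ratFun, ← sub_div, sub_sub_sub_cancel_right]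
    exact div_ne_zero (sub_ne_zero.2 (xVal_ne hv hw hvw τ))
      (sub_ne_zero.2 (xVal_ne (isVec_tA hN) (isVec_tB hN) (apart_ab hN) τ))

/-- A translation other than the identity moves an abscissa. -/
theorem exists_moved (hh : 2 ≤ h) {σ : intFun O N →+* intFun O N} (hσ : σ ∈ gal O N)
    (hne : σ ≠ RingHom.id _) : ∃ (v : ℤ × ℤ) (hv : IsVec N v),
      σ (xB hN hp v hv) ≠ xB hN hp v hv := by
  obtain ⟨γ, hγ, rfl⟩ := mem_gal.1 hσ
  by_contra hall
  push Not at hall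
  refine hne (RingHom.ext fun f => Subtype.ext ?_)
  rw [coe_act]
  rcases mem_gamma_of_fix hN top_zeta hγ (fun v hv => congrArg Subtype.val (hall v hv)) hh
    with hm | hm
  · exact rAct_eq_id hm _
  · exact rAct_neg_eq_id hm _

/-- **The abscissae and the invariants generate.** -/
theorem eq_top_of_mem (hh : 2 ≤ h) (S : Subring (intFun O N)) (hfix : fix O N ≤ S)
    (hX : ∀ v hv, xB hN hp v hv ∈ S) : S = ⊤ := by
  classical
  obtain ⟨T, hT⟩ : ∃ T, T = (gal O N).erase (RingHom.id _) := ⟨_, rfl⟩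
  choose! V hV hVne using fun σ (hσ : σ ∈ T) => exists_moved hN hp hh
    (Finset.mem_erase.1 (hT ▸ hσ)).2 (Finset.mem_erase.1 (hT ▸ hσ)).1
  obtain ⟨X, hXd⟩ : ∃ X : (intFun O N →+* intFun O N) → intFun O N, ∀ σ ∈ T,
      ∀ hv : IsVec N (V σ), X σ = xB hN hp (V σ) hv :=
    ⟨fun σ => if hv : IsVec N (V σ) then xB hN hp (V σ) hv else 0, fun σ _ hv => dif_pos hv⟩
  have hmove : ∀ τ ∈ gal O N, ∀ σ ∈ T, ∃ (w : ℤ × ℤ) (hw : IsVec N w),
      τ (X σ) = xB hN hp w hw := fun τ hτ σ hσ => by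
    obtain ⟨γ, hγ, rfl⟩ := mem_gal.1 hτ
    exact ⟨_, (hV σ hσ).vmul γ, by rw [hXd σ hσ (hV σ hσ), act_xB hN hp hγ]⟩
  have hgal : ∀ σ ∈ T, σ ∈ gal O N := fun σ hσ => (Finset.mem_erase.1 (hT ▸ hσ)).2
  have hτX : ∀ τ ∈ gal O N, ∀ σ ∈ T, τ (X σ) ∈ S := fun τ hτ σ hσ => by
    obtain ⟨w, hw, e⟩ := hmove τ hτ σ hσ
    exact e ▸ hX w hw
  obtain ⟨U, hU⟩ : ∃ U, U = ∏ σ ∈ T, (X σ - σ (X σ)) := ⟨_, rfl⟩
  have hUu : IsUnit U := hU ▸ IsUnit.prod_iff.2 fun σ hσ => by
    obtain ⟨w, hw, e⟩ := hmove σ (hgal σ hσ) σ hσ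
    rw [hXd σ hσ (hV σ hσ)] at e ⊢
    exact e ▸ isUnit_xB_sub hN hp (e ▸ Ne.symm (hVne σ hσ))
  have hUS : ∀ τ ∈ gal O N, τ U ∈ S := fun τ hτ => by
    rw [hU, map_prod]
    exact Subring.prod_mem _ fun σ hσ => by
      rw [map_sub]
      exact Subring.sub_mem _ (hτX τ hτ σ hσ)
        (by rw [← RingHom.comp_apply]; exact hτX _ (comp_mem_gal (hgal σ hσ) hτ) σ hσ)
  have hinvS : ∃ U' ∈ S, U * U' = 1 := by
    obtain ⟨D, hD⟩ : ∃ D, D = ∏ σ ∈ gal O N, σ U := ⟨_, rfl⟩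
    obtain ⟨D', hD'⟩ : ∃ D', D * D' = 1 :=
      (hD ▸ IsUnit.prod_iff.2 fun σ _ => hUu.map σ : IsUnit D).exists_right_inv
    refine ⟨(∏ σ ∈ T, σ U) * D', Subring.mul_mem _
      (Subring.prod_mem _ fun σ hσ => hUS σ (hgal σ hσ))
      (hfix (inverse_mem_fix (hD ▸ prod_mem_fix U) hD')), ?_⟩
    rw [← mul_assoc, show U * ∏ σ ∈ T, σ U = D by
      rw [hD, hT, ← Finset.mul_prod_erase _ _ id_mem_gal, RingHom.id_apply], hD']
  obtain ⟨U', hU'S, hU'⟩ := hinvS
  refine eq_top_iff.2 fun f _ => ?_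
  have key : f * U = ∑ A ∈ T.powerset,
      (∑ τ ∈ gal O N, τ (f * ∏ σ ∈ A, X σ)) * ∏ σ ∈ T \ A, -σ (X σ) := by
    simp only [Finset.sum_mul]
    rw [Finset.sum_comm, Finset.sum_eq_single (RingHom.id _)]
    · simp only [RingHom.id_apply, mul_assoc]
      rw [← Finset.mul_sum, ← Finset.prod_add, hU]
      simp only [sub_eq_add_neg]
    · intro τ hτ hne
      simp only [map_mul, map_prod, mul_assoc]
      rw [← Finset.mul_sum, ← Finset.prod_add, Finset.prod_eq_zero (i := τ)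
        (hT ▸ Finset.mem_erase.2 ⟨hne, hτ⟩) (add_neg_cancel _), mul_zero]
    · exact fun hn => absurd id_mem_gal hn
  rw [show f = f * U * U' by rw [mul_assoc, hU', mul_one], key]
  exact Subring.mul_mem _ (Subring.sum_mem _ fun A _ => Subring.mul_mem _ (hfix (sum_mem_fix _))
    (Subring.prod_mem _ fun σ hσ => Subring.neg_mem _
      (hτX σ (hgal σ (Finset.mem_sdiff.1 hσ).1) σ (Finset.mem_sdiff.1 hσ).1))) hU'S

end FA.WeightLevel

end
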