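import Fermat.Agent.WeightLevel.Ring
import Fermat.Agent.Carayol.Hasse.HassePoly

/-!
# The reduction at infinity

Reducing the expansion at infinity sends `λ` to a transcendental series, so a polynomial in `λ` with
an integral expansion has integral coefficients and the invariants of `Γ(2)` reduce into `k(λ)`.
-/

set_option autoImplicit false
set_option linter.unusedSectionVars false
set_option linter.style.haveILetI false
set_option synthInstance.maxHeartbeats 100000

noncomputable section

namespace FA.WeightLevel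

open UpperHalfPlane hiding I
open CongruenceSubgroup HahnSeries ModularCurve FA.Level FA.ModField FA.Mazur.Wp FA.Carayol
open Polynomial (X)
open scoped MatrixGroups Classical

/-! ### Series -/

/-- A series of positive order is transcendental over the constants. -/
theorem eval₂_ne_zero {k : Type*} [Field k] {U : PowerSeries k}
    (h0 : PowerSeries.constantCoeff U = 0) (hU : U ≠ 0) {P : Polynomial k} (hP : P ≠ 0) :
    P.eval₂ (HahnSeries.C : k →+* LaurentSeries k) (ofPowerSeries ℤ k U) ≠ 0 := by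
  have e : P.eval₂ (HahnSeries.C : k →+* LaurentSeries k) (ofPowerSeries ℤ k U) =
      ofPowerSeries ℤ k (P.eval₂ PowerSeries.C U) := by
    rw [Polynomial.hom_eval₂]
    congr 1
    exact RingHom.ext fun a => (ofPowerSeries_C a).symm
  rw [e, Ne, map_eq_zero_iff _ ofPowerSeries_injective]
  obtain ⟨R, hR, hndvd⟩ := Polynomial.exists_eq_pow_rootMultiplicity_mul_and_not_dvd P hP 0
  rw [map_zero, sub_zero] at hR hndvd
  rw [hR, Polynomial.eval₂_mul, Polynomial.eval₂_X_pow, mul_eq_zero, not_or]
  refine ⟨pow_ne_zero _ hU, fun h => hndvd (Polynomial.X_dvd_iff.2 ?_)⟩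
  have := congrArg PowerSeries.constantCoeff h
  rwa [Polynomial.hom_eval₂, h0, Polynomial.eval₂_at_zero, map_zero,
    RingHom.comp_apply, PowerSeries.constantCoeff_C] at this

variable {O : ValuationSubring ℂ} {ℓ N : ℕ} [NeZero N] {h : ℕ}

/-- The residue field. -/
abbrev resField (O : ValuationSubring ℂ) : Type := IsLocalRing.ResidueField O

theorem coeffMap_subtype_injective :
    Function.Injective (coeffMap (O.subtype : O →+* ℂ)) := fun a b e => by
  ext i
  have := congrArg (fun x : LaurentSeries ℂ => x.coeff i) e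
  simpa [coeffMap_coeff] using this

variable (O) in
/-- An integral series as a series over the ring. -/
def liftL : intL O ≃+* LaurentSeries O :=
  (RingEquiv.ofBijective (coeffMap (O.subtype : O →+* ℂ)).rangeRestrict
    (show Function.Bijective _ from ⟨fun _ _ e => coeffMap_subtype_injective (congrArg Subtype.val e),
      RingHom.rangeRestrict_surjective _⟩)).symm

theorem coeMap_liftL (S : intL O) :
    coeffMap (O.subtype : O →+* ℂ) (liftL O S) = (S : LaurentSeries ℂ) :=
  congrArg Subtype.val ((liftL O).symm_apply_apply S)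

variable (O) in
/-- Reduction of an integral series. -/
def redL : intL O →+* LaurentSeries (resField O) :=
  (coeffMap (IsLocalRing.residue O)).comp (liftL O).toRingHom

theorem coeff_redL (S : intL O) (i : ℤ) (x : O) (hx : (x : ℂ) = (S : LaurentSeries ℂ).coeff i) :
    (redL O S).coeff i = IsLocalRing.residue O x := by
  show (coeffMap (IsLocalRing.residue O) (liftL O S)).coeff i = _
  rw [coeffMap_coeff]
  congr 1
  refine Subtype.ext ?_
  rw [hx, ← coeMap_liftL S, coeffMap_coeff]
  rfl

variable (O N) in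
/-- Reduction at infinity. -/
def redFun : intFun O N →+* LaurentSeries (resField O) :=
  (redL O).comp (RingHom.codRestrict ((cuspSer 1).comp (intFun O N).subtype) (intL O)
    fun f => mem_intFun.1 f.2 1)

theorem coeff_redFun (f : intFun O N) (i : ℤ) (x : O)
    (hx : (x : ℂ) = (cuspSer 1 (f : rN N (⊤ : Subfield ℂ))).coeff i) :
    (redFun O N f).coeff i = IsLocalRing.residue O x :=
  coeff_redL _ i x hx

variable (O N) in
/-- The integral constants. -/
def cB : O →+* intFun O N :=
  RingHom.codRestrict ((rC (N := N)).comp (O.subtype.codRestrict (⊤ : Subfield ℂ) fun _ =>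
      Subfield.mem_top _)) (intFun O N)
    fun x => mem_intFun.2 fun g => by
      rw [RingHom.comp_apply, cuspSer_rC]
      exact ⟨HahnSeries.C x, by rw [HahnSeries.C_apply, coeffMap_single]; rfl⟩

theorem cuspSer_cB (g : SL(2, ℤ)) (x : O) :
    cuspSer g (cB O N x : rN N (⊤ : Subfield ℂ)) = HahnSeries.C (x : ℂ) :=
  cuspSer_rC g _

theorem redFun_cB (x : O) :
    redFun O N (cB O N x) = HahnSeries.C (IsLocalRing.residue O x) := by
  ext i
  rcases eq_or_ne i 0 with rfl | hi
  · rw [coeff_redFun _ 0 x (by rw [cuspSer_cB]; simp [HahnSeries.C_apply])]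
    simp [HahnSeries.C_apply]
  · rw [coeff_redFun _ i 0 (by rw [cuspSer_cB]; simp [HahnSeries.C_apply, coeff_single_of_ne hi]),
      map_zero]
    simp [HahnSeries.C_apply, coeff_single_of_ne hi]

variable (hN : N = 2 * h) (hp : GoodPrime O ℓ N)
include hp

/-- `λ` among the integral functions. -/
def lamB : intFun O N := xB hN hp (tC h) (isVec_tC hN)

theorem coe_lamB : ((lamB hN hp : intFun O N) : rN N (⊤ : Subfield ℂ)) =
    lam hN (⊤ : Subfield ℂ) top_zeta := rfl

omit hp in
theorem natCast_res_ne (hl : ℓ.Prime) (hℓ : O.valuation (ℓ : ℂ) < 1) {m : ℕ} (hm : ¬ℓ ∣ m) :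
    (m : resField O) ≠ 0 := fun e => by
  rw [← map_natCast (IsLocalRing.residue O), FA.KlingenIntegral.residue_eq_zero] at e
  simp [FA.KlingenIntegral.val_natCast_eq_one hl hℓ hm] at e

theorem exists_one_sub_series : ∃ U : PowerSeries (resField O),
    PowerSeries.constantCoeff U = 0 ∧ U ≠ 0 ∧
    redFun O N (1 - lamB hN hp) = ofPowerSeries ℤ (resField O) U := by
  have hh := half_pos hN
  obtain ⟨hlow, h16⟩ := rSer_one_sub_lam hN (⊤ : Subfield ℂ) top_zeta
  have ec : ∀ i, (cuspSer 1 ((1 - lamB hN hp : intFun O N) : rN N (⊤ : Subfield ℂ))).coeff i =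
      ((rSer (1 - lam hN (⊤ : Subfield ℂ) top_zeta)).coeff i : ℂ) := fun i => by
    rw [AddSubgroupClass.coe_sub, coe_lamB, cuspSer, RingHom.comp_apply, RingHom.comp_apply,
      Carayol.rAct_one, coeffMap_coeff]
    rfl
  have hlow' : ∀ i : ℤ, i < h → (redFun O N (1 - lamB hN hp)).coeff i = 0 := fun i hi => by
    rw [coeff_redFun _ i 0 (by rw [ec, hlow i hi]; rfl), map_zero]
  have hh' : (redFun O N (1 - lamB hN hp)).coeff (h : ℤ) = ((16 : ℕ) : resField O) := by
    rw [coeff_redFun _ _ ((16 : ℕ) : O) (by rw [ec, h16]; norm_cast), map_natCast]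
  have h16' : ¬ℓ ∣ 16 := fun hd => by
    have := Nat.le_of_dvd two_pos (hp.prime.dvd_of_dvd_pow (show ℓ ∣ 2 ^ 4 from hd))
    have := hp.five
    omega
  refine ⟨PowerSeries.mk fun n : ℕ => (redFun O N (1 - lamB hN hp)).coeff (n : ℤ), ?_, fun e => ?_,
    ?_⟩
  · rw [← PowerSeries.coeff_zero_eq_constantCoeff_apply, PowerSeries.coeff_mk]
    exact hlow' _ (by exact_mod_cast hh)
  · have := congrArg (PowerSeries.coeff h) e
    rw [PowerSeries.coeff_mk, hh', map_zero] at this
    exact natCast_res_ne hp.prime hp.small h16' this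
  · ext i
    rcases lt_or_ge i 0 with hi | hi
    · rw [hlow' i (by omega), ModularCurve.ofPowerSeries_coeff_of_neg _ hi]
    · obtain ⟨n, rfl⟩ := Int.eq_ofNat_of_zero_le hi
      rw [HahnSeries.ofPowerSeries_apply_coeff, PowerSeries.coeff_mk]

/-- The reduction of `λ` is transcendental. -/
theorem lam_transcendental {P : Polynomial (resField O)} (hP : P ≠ 0) :
    P.eval₂ HahnSeries.C (redFun O N (lamB hN hp)) ≠ 0 := by
  obtain ⟨U, hU0, hU, e⟩ := exists_one_sub_series hN hp
  have hc : (P.comp (1 - X)).comp (1 - X) = P := by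
    rw [Polynomial.comp_assoc, Polynomial.sub_comp, Polynomial.one_comp, Polynomial.X_comp,
      sub_sub_cancel, Polynomial.comp_X]
  rw [← hc, Polynomial.eval₂_comp, Polynomial.eval₂_sub, Polynomial.eval₂_one, Polynomial.eval₂_X,
    ← map_one (redFun O N), ← map_sub, e]
  exact eval₂_ne_zero hU0 hU fun e0 => hP (by rw [← hc, e0, Polynomial.zero_comp])

/-- A polynomial in `λ` with an integral expansion has integral coefficients. -/
theorem integral_coeff {Q : Polynomial ℂ} {y : intFun O N}
    (hy : cuspSer 1 (y : rN N (⊤ : Subfield ℂ)) =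
      Q.eval₂ HahnSeries.C (cuspSer 1 (lamB hN hp : rN N (⊤ : Subfield ℂ)))) (i : ℕ) :
    O.valuation (Q.coeff i) ≤ 1 := by
  by_contra hlt
  rw [not_le] at hlt
  obtain ⟨j, hj, hmax⟩ := Finset.exists_max_image Q.support (fun n => O.valuation (Q.coeff n))
    ⟨i, Polynomial.mem_support_iff.2 fun e => by simp [e] at hlt⟩
  have hji : 1 < O.valuation (Q.coeff j) :=
    hlt.trans_le (hmax i (Polynomial.mem_support_iff.2 fun e => by simp [e] at hlt))
  obtain ⟨c, hc⟩ : ∃ c, c = Q.coeff j := ⟨_, rfl⟩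
  rw [← hc] at hji hmax
  have hc0 : c ≠ 0 := fun e => by simp [e] at hji
  have hle : ∀ n, O.valuation ((Polynomial.C c⁻¹ * Q).coeff n) ≤ 1 := fun n => by
    rw [Polynomial.coeff_C_mul, map_mul, map_inv₀, inv_mul_le_iff₀ (lt_trans zero_lt_one hji),
      mul_one]
    by_cases hn : n ∈ Q.support
    · exact hmax n hn
    · rw [Polynomial.notMem_support_iff.1 hn, map_zero]
      exact zero_le
  obtain ⟨R, hR⟩ : Polynomial.C c⁻¹ * Q ∈ Polynomial.lifts (O.subtype : O →+* ℂ) :=
    (Polynomial.lifts_iff_coeff_lifts _).2 fun n =>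
      ⟨⟨_, (O.valuation_le_one_iff _).1 (hle n)⟩, rfl⟩
  rw [Polynomial.coe_mapRingHom] at hR
  obtain ⟨z, hz⟩ : ∃ z : intFun O N, z = R.eval₂ (cB O N) (lamB hN hp) := ⟨_, rfl⟩
  have hzs : cuspSer 1 (z : rN N (⊤ : Subfield ℂ)) =
      HahnSeries.C c⁻¹ * cuspSer 1 (y : rN N (⊤ : Subfield ℂ)) := by
    rw [hy, show ((HahnSeries.C : ℂ →+* LaurentSeries ℂ) c⁻¹) =
      (Polynomial.C c⁻¹).eval₂ HahnSeries.C (cuspSer 1 (lamB hN hp : rN N (⊤ : Subfield ℂ))) by
        rw [Polynomial.eval₂_C], ← Polynomial.eval₂_mul, ← hR, Polynomial.eval₂_map, hz,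
      show ((R.eval₂ (cB O N) (lamB hN hp) : intFun O N) : rN N (⊤ : Subfield ℂ)) =
        (intFun O N).subtype (R.eval₂ (cB O N) (lamB hN hp)) from rfl,
      Polynomial.hom_eval₂, Polynomial.hom_eval₂]
    congr 1
    exact RingHom.ext fun x => cuspSer_cB 1 x
  have hz0 : redFun O N z = 0 := by
    ext n
    have hv : O.valuation ((cuspSer 1 (z : rN N (⊤ : Subfield ℂ))).coeff n) < 1 := by
      rw [hzs, HahnSeries.C_apply, coeff_single_zero_mul, map_mul, map_inv₀,
        inv_mul_lt_iff₀ (lt_trans zero_lt_one hji), mul_one]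
      exact ((mem_intL.1 (mem_intFun.1 y.2 1)) n).trans_lt hji
    rw [coeff_redFun z n ⟨_, (O.valuation_le_one_iff _).1 hv.le⟩ rfl,
      HahnSeries.coeff_zero]
    exact (FA.KlingenIntegral.residue_eq_zero _).2 hv
  rw [hz, Polynomial.hom_eval₂, show (redFun O N).comp (cB O N) =
      (HahnSeries.C : resField O →+* LaurentSeries (resField O)).comp (IsLocalRing.residue O) from
    RingHom.ext fun x => redFun_cB x, ← Polynomial.eval₂_map] at hz0
  have hR0 : R.map (IsLocalRing.residue O) = 0 := by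
    by_contra hne
    exact lam_transcendental hN hp hne hz0
  have hj' := congrArg (fun P => Polynomial.coeff P j) hR0
  simp only [Polynomial.coeff_map, Polynomial.coeff_zero] at hj'
  rw [FA.KlingenIntegral.residue_eq_zero] at hj'
  have e : ((R.coeff j : O) : ℂ) = 1 := by
    rw [show ((R.coeff j : O) : ℂ) = (R.map (O.subtype : O →+* ℂ)).coeff j from by
      rw [Polynomial.coeff_map]; rfl, hR, Polynomial.coeff_C_mul, ← hc, inv_mul_cancel₀ hc0]
  rw [e, map_one] at hj'
  exact lt_irrefl _ hj'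

/-- **The reductions of the invariants.** -/
theorem exists_fix_poly {b : intFun O N} (hb : b ∈ fix O N) :
    ∃ (a c : ℕ) (P : Polynomial (resField O)),
      redFun O N b * redFun O N (lamB hN hp) ^ a * (1 - redFun O N (lamB hN hp)) ^ c =
        P.eval₂ HahnSeries.C (redFun O N (lamB hN hp)) := by
  obtain ⟨a, c, P, hP⟩ := exists_poly_lam hN (⊤ : Subfield ℂ) top_zeta
    (f := (b : rN N (⊤ : Subfield ℂ)))
    (fun γ hγ => congrArg Subtype.val (mem_fix.1 hb _ (mem_gal.2 ⟨γ, hγ, rfl⟩)))
  obtain ⟨y, hy⟩ : ∃ y : intFun O N, y = b * lamB hN hp ^ a * (1 - lamB hN hp) ^ c := ⟨_, rfl⟩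
  have hys : cuspSer 1 (y : rN N (⊤ : Subfield ℂ)) = (P.map (⊤ : Subfield ℂ).subtype).eval₂
      HahnSeries.C (cuspSer 1 (lamB hN hp : rN N (⊤ : Subfield ℂ))) := by
    have e : ((y : intFun O N) : rN N (⊤ : Subfield ℂ)) =
        P.eval₂ rC (lam hN (⊤ : Subfield ℂ) top_zeta) := by
      rw [← hP, hy]
      push_cast
      rfl
    rw [e, Polynomial.hom_eval₂, Polynomial.eval₂_map, coe_lamB]
    congr 1
    exact RingHom.ext fun x => cuspSer_rC 1 x
  have hint := integral_coeff hN hp hys
  obtain ⟨R, hR⟩ : P.map (⊤ : Subfield ℂ).subtype ∈ Polynomial.lifts (O.subtype : O →+* ℂ) :=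
    (Polynomial.lifts_iff_coeff_lifts _).2 fun n =>
      ⟨⟨_, (O.valuation_le_one_iff _).1 (hint n)⟩, rfl⟩
  rw [Polynomial.coe_mapRingHom] at hR
  refine ⟨a, c, R.map (IsLocalRing.residue O), ?_⟩
  have ey : y = R.eval₂ (cB O N) (lamB hN hp) := by
    refine Subtype.ext (rSer_injective (HahnSeries.ext (funext fun i => Subtype.ext ?_)))
    have h1 : ∀ f : rN N (⊤ : Subfield ℂ), ((rSer f).coeff i : ℂ) = (cuspSer 1 f).coeff i :=
      fun f => by
        rw [cuspSer, RingHom.comp_apply, RingHom.comp_apply, Carayol.rAct_one, coeffMap_coeff]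
        rfl
    rw [h1, h1, hys, ← hR, Polynomial.eval₂_map,
      show ((R.eval₂ (cB O N) (lamB hN hp) : intFun O N) : rN N (⊤ : Subfield ℂ)) =
        (intFun O N).subtype (R.eval₂ (cB O N) (lamB hN hp)) from rfl,
      Polynomial.hom_eval₂, Polynomial.hom_eval₂]
    congr 2
    exact RingHom.ext fun x => (cuspSer_cB 1 x).symm
  rw [← map_one (redFun O N), ← map_sub, ← map_pow, ← map_pow, ← map_mul, ← map_mul, ← hy, ey,
    Polynomial.hom_eval₂, Polynomial.eval₂_map]
  congr 1
  exact RingHom.ext fun x => redFun_cB x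

end FA.WeightLevel

end
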