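import Fermat.Agent.Carayol.Field.Fixed
import Fermat.Agent.Carayol.Curve.Lattice
import Fermat.Agent.KlingenIntegral.LevelOne
import Mathlib.RingTheory.HahnSeries.Summable

/-!
# Differences of abscissae are units at every cusp

Let a valuation ring of `ℂ` lie over a prime `ℓ ≥ 5` prime to `N`. The expansion at infinity of the
difference of the values of `℘` at two points of order dividing `N` with different abscissae has
integral coefficients and a unit as its leading coefficient, so is a unit among the integral series.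
-/

set_option autoImplicit false
set_option linter.unusedSectionVars false

noncomputable section

namespace FA.WeightLevel

open UpperHalfPlane hiding I
open HahnSeries ModularCurve FA.ModField FA.Mazur.Wp FA.Carayol
open FA.KlingenIntegral (val_natCast_eq_one val_natCast_le val_intCast_le val_root)
open scoped MatrixGroups

variable {O : ValuationSubring ℂ} {ℓ : ℕ}

/-- The series with integral coefficients. -/
def intL (O : ValuationSubring ℂ) : Subring (LaurentSeries ℂ) :=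
  (coeffMap (O.subtype : O →+* ℂ)).range

theorem mem_intL {S : LaurentSeries ℂ} : S ∈ intL O ↔ ∀ i, O.valuation (S.coeff i) ≤ 1 := by
  constructor
  · rintro ⟨T, rfl⟩ i
    rw [coeffMap_coeff]
    exact (O.valuation_le_one_iff _).2 (T.coeff i).2
  · intro h
    refine ⟨⟨fun i => ⟨S.coeff i, (O.valuation_le_one_iff _).1 (h i)⟩,
      S.isPWO_support'.mono fun i hi h0 => hi (Subtype.ext h0)⟩, ?_⟩
    ext i
    rw [coeffMap_coeff]
    rfl

/-- The units among the integral series. -/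
def IntUnit (O : ValuationSubring ℂ) (S : LaurentSeries ℂ) : Prop :=
  ∃ T : (LaurentSeries O)ˣ, coeffMap (O.subtype : O →+* ℂ) T = S

theorem IntUnit.mem {S : LaurentSeries ℂ} (h : IntUnit O S) : S ∈ intL O := by
  obtain ⟨T, rfl⟩ := h
  exact ⟨_, rfl⟩

theorem IntUnit.ne_zero {S : LaurentSeries ℂ} (h : IntUnit O S) : S ≠ 0 := by
  obtain ⟨T, rfl⟩ := h
  exact (T.isUnit.map _).ne_zero

theorem IntUnit.mul {S S' : LaurentSeries ℂ} (h : IntUnit O S) (h' : IntUnit O S') :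
    IntUnit O (S * S') := by
  obtain ⟨T, rfl⟩ := h
  obtain ⟨T', rfl⟩ := h'
  exact ⟨T * T', by rw [Units.val_mul, map_mul]⟩

theorem IntUnit.inv {S : LaurentSeries ℂ} (h : IntUnit O S) : IntUnit O S⁻¹ := by
  obtain ⟨T, rfl⟩ := h
  exact ⟨T⁻¹, map_units_inv _ T⟩

theorem IntUnit.neg {S : LaurentSeries ℂ} (h : IntUnit O S) : IntUnit O (-S) := by
  obtain ⟨T, rfl⟩ := h
  exact ⟨-T, by rw [Units.val_neg, map_neg]⟩

/-- Integral coefficients, a unit as the first. -/
theorem intUnit_of_coeff {S : LaurentSeries ℂ} (M : ℤ) (hS : S ∈ intL O)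
    (hlow : ∀ i < M, S.coeff i = 0) (hM : O.valuation (S.coeff M) = 1) : IntUnit O S := by
  obtain ⟨T, rfl⟩ := hS
  have hTM : (T.coeff M : ℂ) = (coeffMap (O.subtype : O →+* ℂ) T).coeff M := by
    rw [coeffMap_coeff]
    rfl
  have hne : T.coeff M ≠ 0 := fun e => by
    rw [← hTM, e] at hM
    simp at hM
  have hT : T ≠ 0 := fun e => hne (by rw [e]; rfl)
  have hord : T.order = M := le_antisymm (HahnSeries.order_le_of_coeff_ne_zero hne) (not_lt.1 fun hlt =>
    HahnSeries.coeff_order_eq_zero.not.2 hT (Subtype.ext (by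
      have := hlow _ hlt
      rw [coeffMap_coeff] at this
      exact this)))
  refine ⟨(HahnSeries.isUnit_iff.2 ?_).unit, rfl⟩
  rw [HahnSeries.leadingCoeff_eq, hord, ValuationSubring.valuation_eq_one_iff, hTM, hM]

/-! ### Roots of unity -/

variable {N : ℕ} [NeZero N]

theorem eta_mul_eta (a b : ℤ) : eta N a * eta N b = eta N (a + b) := by
  rw [eta, eta, eta, ← Complex.exp_add]
  push_cast
  ring_nf

theorem eta_eq_one {b : ℤ} : eta N b = 1 ↔ (N : ℤ) ∣ b := by
  rw [eta, Complex.exp_eq_one_iff]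
  have hN : (N : ℂ) ≠ 0 := Nat.cast_ne_zero.2 (NeZero.ne N)
  refine ⟨fun ⟨n, hn⟩ => ⟨n, ?_⟩, fun ⟨n, hn⟩ => ⟨n, ?_⟩⟩
  · rw [div_eq_iff hN, tpi] at hn
    have h2 : (b : ℂ) = (((N : ℤ) * n : ℤ) : ℂ) := by
      refine mul_left_cancel₀ Complex.two_pi_I_ne_zero ?_
      push_cast
      linear_combination hn
    exact_mod_cast h2
  · rw [hn, tpi]
    push_cast
    field_simp

theorem val_eta (b : ℤ) : O.valuation (eta N b) = 1 := by
  refine val_root (NeZero.ne N) ?_
  rw [eta, ← Complex.exp_nat_mul, Complex.exp_eq_one_iff]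
  refine ⟨b, ?_⟩
  have hN : (N : ℂ) ≠ 0 := Nat.cast_ne_zero.2 (NeZero.ne N)
  rw [tpi]
  field_simp

/-- A root of unity of order prime to `ℓ` is not congruent to one. -/
theorem val_one_sub (hp : ℓ.Prime) (hℓ : O.valuation (ℓ : ℂ) < 1) (hN : ¬ℓ ∣ N) {z : ℂ}
    (hz : z ^ N = 1) (h1 : z ≠ 1) : O.valuation (1 - z) = 1 := by
  have hzv : O.valuation z = 1 := val_root (NeZero.ne N) hz
  refine le_antisymm (O.valuation.map_sub_le (map_one _).le hzv.le) (not_lt.1 fun hlt => ?_)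
  have h0 : (∑ j ∈ Finset.range N, z ^ j) = 0 := by
    rw [geom_sum_eq h1, hz, sub_self, zero_div]
  have hs : O.valuation (∑ j ∈ Finset.range N, (z ^ j - 1)) < 1 := by
    refine Valuation.map_sum_lt _ one_ne_zero fun j _ => ?_
    rw [← geom_sum_mul, map_mul, mul_comm, Valuation.map_sub_swap]
    exact (mul_le_of_le_one_right' (Valuation.map_sum_le _ fun i _ => by
      rw [map_pow, hzv, one_pow])).trans_lt hlt
  rw [Finset.sum_sub_distrib, h0, zero_sub, Valuation.map_neg, Finset.sum_const, Finset.card_range,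
    nsmul_one, val_natCast_eq_one hp hℓ hN] at hs
  exact lt_irrefl _ hs

theorem val_eta_sub (hp : ℓ.Prime) (hℓ : O.valuation (ℓ : ℂ) < 1) (hN : ¬ℓ ∣ N) {b d : ℤ}
    (h : ¬(N : ℤ) ∣ b - d) : O.valuation (eta N b - eta N d) = 1 := by
  have e : eta N b - eta N d = -(eta N d * (1 - eta N (b - d))) := by
    rw [mul_sub, mul_one, eta_mul_eta, add_sub_cancel]
    ring
  rw [e, Valuation.map_neg, map_mul, val_eta, one_mul]
  refine val_one_sub hp hℓ hN ?_ fun e => h (eta_eq_one.1 e)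
  rw [eta, ← Complex.exp_nat_mul, Complex.exp_eq_one_iff]
  refine ⟨b - d, ?_⟩
  have hN : (N : ℂ) ≠ 0 := Nat.cast_ne_zero.2 (NeZero.ne N)
  rw [tpi]
  push_cast
  field_simp

/-! ### The series -/

variable (N) in
/-- The series of the normalised value of `℘` at a vector. -/
def xS (v : ℤ × ℤ) : LaurentSeries ℂ := ofPowerSeries ℤ ℂ (xSer N v.1 (eta N v.2))

theorem hasExp_xS {v : ℤ × ℤ} (hv : IsVec N v) : HasExp (qp N) (xVal N v.1 v.2) (xS N v) :=
  hasExp_xVal v.1 v.2 hv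

theorem xS_coeff_nat (v : ℤ × ℤ) (M : ℕ) :
    (xS N v).coeff (M : ℤ) = xCoeff N v.1 (eta N v.2) M := by
  rw [xS, HahnSeries.ofPowerSeries_apply_coeff, xSer, PowerSeries.coeff_mk]

theorem xS_coeff_neg (v : ℤ × ℤ) {i : ℤ} (hi : i < 0) : (xS N v).coeff i = 0 :=
  ModularCurve.ofPowerSeries_coeff_of_neg _ hi

theorem xS_mem (hp : ℓ.Prime) (hℓ : O.valuation (ℓ : ℂ) < 1) (h5 : 5 ≤ ℓ) (hN : ¬ℓ ∣ N)
    {v : ℤ × ℤ} (hv : IsVec N v) : xS N v ∈ intL O := by
  refine mem_intL.2 fun i => ?_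
  rcases lt_or_ge i 0 with hi | hi
  · rw [xS_coeff_neg v hi, map_zero]
    exact zero_le
  obtain ⟨M, rfl⟩ := Int.eq_ofNat_of_zero_le hi
  rw [xS_coeff_nat]
  have hη : O.valuation (eta N v.2) = 1 := val_eta v.2
  have hite : ∀ (P : Prop) [Decidable P] (x : ℂ), O.valuation x ≤ 1 →
      O.valuation (if P then x else 0) ≤ 1 := fun P _ x hx => by
    split_ifs
    exacts [hx, (map_zero O.valuation).le.trans zero_le]
  cases M with
  | zero =>
    rw [xCoeff]
    refine O.valuation.map_add_le ?_ ?_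
    · have h12 : ¬ℓ ∣ 12 := fun hd => by
        have h' : ℓ ∣ 2 ^ 2 * 3 := hd
        rcases hp.dvd_mul.1 h' with h'' | h''
        · have := Nat.le_of_dvd two_pos (hp.dvd_of_dvd_pow h'')
          omega
        · have := Nat.le_of_dvd three_pos h''
          omega
      rw [map_div₀, map_one, show (12 : ℂ) = ((12 : ℕ) : ℂ) by norm_num,
        val_natCast_eq_one hp hℓ h12, div_one]
    · split_ifs with hd
      · rw [map_div₀, map_pow, hη, val_one_sub hp hℓ hN, one_pow, div_one]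
        · rw [eta, ← Complex.exp_nat_mul, Complex.exp_eq_one_iff]
          refine ⟨v.2, ?_⟩
          have hN : (N : ℂ) ≠ 0 := Nat.cast_ne_zero.2 (NeZero.ne N)
          rw [tpi]
          field_simp
        · exact fun e => hv ⟨hd, eta_eq_one.1 e⟩
      · rw [map_zero]
        exact zero_le
  | succ M =>
    rw [xCoeff]
    refine Valuation.map_sum_le _ fun x _ => ?_
    rw [map_mul]
    refine mul_le_one' (val_natCast_le _) (O.valuation.map_sub_le (O.valuation.map_add_le ?_ ?_) ?_)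
    · exact hite _ _ (by rw [map_pow, hη, one_pow])
    · exact hite _ _ (by rw [map_pow, map_inv₀, hη, inv_one, one_pow])
    · exact hite _ _ (val_natCast_le 2)

/-- The low coefficients for a reduced first entry. -/
theorem xCoeff_low {a : ℕ} (ha : 2 * a ≤ N) {M : ℕ} (hM0 : 0 < M) (hMa : M ≤ a) (η : ℂ) :
    xCoeff N (a : ℤ) η M = if M = a then η + (if 2 * a = N then η⁻¹ else 0) else 0 := by
  obtain ⟨M, rfl⟩ : ∃ j, M = j + 1 := ⟨M - 1, by omega⟩
  rw [xCoeff]
  have hle : ∀ x ∈ Nat.divisorsAntidiagonal (M + 1), 1 ≤ x.1 ∧ 1 ≤ x.2 ∧ x.2 ≤ M + 1 ∧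
      (x.2 = M + 1 → x.1 = 1) := fun x hx => by
    obtain ⟨hx1, -⟩ := Nat.mem_divisorsAntidiagonal.1 hx
    have h1 : 1 ≤ x.1 := Nat.pos_of_ne_zero fun h0 => by simp [h0] at hx1
    have h2 : 1 ≤ x.2 := Nat.pos_of_ne_zero fun h0 => by simp [h0] at hx1
    refine ⟨h1, h2, hx1 ▸ Nat.le_mul_of_pos_left _ h1, fun e => ?_⟩
    rw [e] at hx1
    exact Nat.eq_of_mul_eq_mul_right (by omega) (hx1.trans (one_mul _).symm)
  have n3 : ∀ x ∈ Nat.divisorsAntidiagonal (M + 1), ¬(N : ℤ) ∣ (x.2 : ℤ) := fun x hx hd => by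
    obtain ⟨-, h2, h3, -⟩ := hle x hx
    have := Int.le_of_dvd (by omega) hd
    omega
  have n2 : ∀ x ∈ Nat.divisorsAntidiagonal (M + 1), ((N : ℤ) ∣ (x.2 : ℤ) + a ↔
      x.2 = a ∧ 2 * a = N) := fun x hx => by
    obtain ⟨-, h2, h3, -⟩ := hle x hx
    refine ⟨fun hd => ?_, fun ⟨e1, e2⟩ => ⟨1, by omega⟩⟩
    have := Int.le_of_dvd (by omega) hd
    omega
  have n1 : ∀ x ∈ Nat.divisorsAntidiagonal (M + 1), ((N : ℤ) ∣ (x.2 : ℤ) - a ↔ x.2 = a) :=
      fun x hx => by
    obtain ⟨-, h2, h3, -⟩ := hle x hx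
    refine ⟨fun hd => ?_, fun e => ⟨0, by omega⟩⟩
    by_contra hne
    have := Int.le_of_dvd (show (0 : ℤ) < a - x.2 by omega) ((dvd_sub_comm).1 hd)
    omega
  split_ifs with he h2a
  · rw [Finset.sum_eq_single (1, a)]
    · have hm := (Nat.mem_divisorsAntidiagonal (x := ((1, a) : ℕ × ℕ)) (n := M + 1)).2
        ⟨by simp [he], by omega⟩
      rw [if_pos ((n1 _ hm).2 rfl), if_pos ((n2 _ hm).2 ⟨rfl, h2a⟩), if_neg (n3 _ hm)]
      simp
    · intro x hx hne
      obtain ⟨-, -, h3, h4⟩ := hle x hx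
      have : x.2 ≠ a := fun e => hne (Prod.ext (h4 (e.trans he.symm)) e)
      rw [if_neg (fun hd => this ((n1 x hx).1 hd)), if_neg (fun hd => this ((n2 x hx).1 hd).1),
        if_neg (n3 x hx)]
      simp
    · exact fun hn => absurd (Nat.mem_divisorsAntidiagonal.2 ⟨by simp [he], by omega⟩) hn
  · rw [Finset.sum_eq_single (1, a)]
    · have hm := (Nat.mem_divisorsAntidiagonal (x := ((1, a) : ℕ × ℕ)) (n := M + 1)).2
        ⟨by simp [he], by omega⟩
      rw [if_pos ((n1 _ hm).2 rfl), if_neg (fun hd => h2a ((n2 _ hm).1 hd).2), if_neg (n3 _ hm)]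
      simp
    · intro x hx hne
      obtain ⟨-, -, h3, h4⟩ := hle x hx
      have : x.2 ≠ a := fun e => hne (Prod.ext (h4 (e.trans he.symm)) e)
      rw [if_neg (fun hd => this ((n1 x hx).1 hd)), if_neg (fun hd => this ((n2 x hx).1 hd).1),
        if_neg (n3 x hx)]
      simp
    · exact fun hn => absurd (Nat.mem_divisorsAntidiagonal.2 ⟨by simp [he], by omega⟩) hn
  · refine Finset.sum_eq_zero fun x hx => ?_
    obtain ⟨-, -, h3, -⟩ := hle x hx
    have : x.2 ≠ a := fun e => by omega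
    rw [if_neg (fun hd => this ((n1 x hx).1 hd)), if_neg (fun hd => this ((n2 x hx).1 hd).1),
      if_neg (n3 x hx)]
    simp

/-- The same vector up to sign. -/
def Sim (N : ℕ) (v v' : ℤ × ℤ) : Prop :=
  ∃ ε : ℤ, (ε = 1 ∨ ε = -1) ∧ (N : ℤ) ∣ v.1 - ε * v'.1 ∧ (N : ℤ) ∣ v.2 - ε * v'.2

theorem isVec_congr' {v v' : ℤ × ℤ} (h : Sim N v v') (hv : IsVec N v) : IsVec N v' := by
  obtain ⟨ε, -, h1, h2⟩ := h
  exact fun hd => hv ⟨by simpa using dvd_add h1 (hd.1.mul_left ε),
    by simpa using dvd_add h2 (hd.2.mul_left ε)⟩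

theorem xS_sim {v v' : ℤ × ℤ} (h : Sim N v v') (hv : IsVec N v) : xS N v = xS N v' := by
  refine HasExp.unique (covers_qp N) (hasExp_xS hv) ?_
  refine (hasExp_xS (isVec_congr' h hv)).congr (funext fun τ => ?_)
  obtain ⟨ε, hε, h1, h2⟩ := h
  show wpAt N τ v' / tpi ^ 2 = wpAt N τ v / tpi ^ 2
  rcases hε with rfl | rfl
  · rw [(at_congr τ (v := v) (w := v') (by simpa using h1) (by simpa using h2)).1]
  · rw [(at_congr τ (v := v) (w := -v') (by simpa using h1) (by simpa using h2)).1, wpAt_neg]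

theorem apart_sim {v v' w : ℤ × ℤ} (h : Sim N v v') (ha : Apart N v w) : Apart N v' w := by
  obtain ⟨ε, hε, h1, h2⟩ := h
  rcases hε with rfl | rfl <;>
    refine ⟨fun hd => ?_, fun hd => ?_⟩
  · exact ha.1 ⟨by simpa using dvd_add h1 hd.1, by simpa using dvd_add h2 hd.2⟩
  · exact ha.2 ⟨by simpa [← add_assoc] using dvd_add h1 hd.1,
      by simpa [← add_assoc] using dvd_add h2 hd.2⟩
  · exact ha.2 ⟨by simpa [sub_eq_add_neg, add_assoc] using dvd_sub h1 hd.1,
      by simpa [sub_eq_add_neg, add_assoc] using dvd_sub h2 hd.2⟩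
  · exact ha.1 ⟨by simpa [sub_eq_add_neg, add_assoc] using dvd_sub h1 hd.1,
      by simpa [sub_eq_add_neg, add_assoc] using dvd_sub h2 hd.2⟩

theorem apart_symm {v w : ℤ × ℤ} (ha : Apart N v w) : Apart N w v := by
  refine ⟨fun hd => ha.1 ⟨?_, ?_⟩, fun hd => ha.2 ?_⟩
  · simpa using hd.1.neg_right
  · simpa using hd.2.neg_right
  · rwa [add_comm]

theorem exists_reduced (v : ℤ × ℤ) : ∃ (a : ℕ) (b : ℤ), 2 * a ≤ N ∧ Sim N v (a, b) := by
  have hN : (N : ℤ) ≠ 0 := Int.natCast_ne_zero.2 (NeZero.ne N)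
  have h0 := Int.emod_nonneg v.1 hN
  have h1 := Int.emod_lt_of_pos v.1 (show (0 : ℤ) < N by omega)
  have hd : (N : ℤ) ∣ v.1 - v.1 % N := Int.dvd_self_sub_emod
  by_cases h : 2 * (v.1 % N) ≤ N
  · refine ⟨(v.1 % N).toNat, v.2, by omega, 1, Or.inl rfl, ?_, by simp⟩
    rw [Int.toNat_of_nonneg h0]
    simpa using hd
  · refine ⟨(N - v.1 % N).toNat, -v.2, by omega, -1, Or.inr rfl, ?_, by simp⟩
    rw [Int.toNat_of_nonneg (by omega)]
    rw [show v.1 - (-1 : ℤ) * ((((N : ℤ) - v.1 % N), -v.2) : ℤ × ℤ).1 = v.1 - v.1 % N + N by simp; ring]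
    exact dvd_add hd (dvd_refl _)

/-- **The difference of two abscissae is a unit at infinity.** -/
theorem diff_unit (hp : ℓ.Prime) (hℓ : O.valuation (ℓ : ℂ) < 1) (h5 : 5 ≤ ℓ) (hN : ¬ℓ ∣ N)
    {v w : ℤ × ℤ} (hv : IsVec N v) (hw : IsVec N w) (hvw : Apart N v w) :
    IntUnit O (xS N v - xS N w) := by
  obtain ⟨a, b, ha, hs⟩ := exists_reduced (N := N) v
  obtain ⟨c, d, hc, ht⟩ := exists_reduced (N := N) w
  rw [xS_sim hs hv, xS_sim ht hw]
  have hv' := isVec_congr' hs hv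
  have hw' := isVec_congr' ht hw
  have hvw' := apart_symm (apart_sim ht (apart_symm (apart_sim hs hvw)))
  wlog hac : a ≤ c generalizing v w a b c d
  · have h := this hw hv (apart_symm hvw) c d hc ht a b ha hs hw' hv' (apart_symm hvw') (by omega)
    simpa using h.neg
  have hmem : xS N ((a : ℤ), b) - xS N ((c : ℤ), d) ∈ intL O :=
    Subring.sub_mem _ (xS_mem hp hℓ h5 hN hv') (xS_mem hp hℓ h5 hN hw')
  have hlow : ∀ i : ℤ, i < a → (xS N ((a : ℤ), b) - xS N ((c : ℤ), d)).coeff i = 0 := fun i hi => by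
    rw [HahnSeries.coeff_sub]
    rcases lt_or_ge i 0 with hi0 | hi0
    · rw [xS_coeff_neg _ hi0, xS_coeff_neg _ hi0, sub_zero]
    obtain ⟨M, rfl⟩ := Int.eq_ofNat_of_zero_le hi0
    rw [xS_coeff_nat, xS_coeff_nat]
    dsimp only
    rcases Nat.eq_zero_or_pos M with rfl | hM
    · have hz : ∀ x : ℕ, 0 < x → 2 * x ≤ N → ¬(N : ℤ) ∣ (x : ℤ) := fun x hx hxN hd => by
        have := Int.le_of_dvd (by omega) hd
        omega
      rw [xCoeff, xCoeff, if_neg (hz a (by omega) ha), if_neg (hz c (by omega) hc), sub_self]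
    · rw [xCoeff_low ha hM (by omega), xCoeff_low hc hM (by omega), if_neg (by omega),
        if_neg (by omega), sub_self]
  refine intUnit_of_coeff (a : ℤ) hmem hlow ?_
  rw [HahnSeries.coeff_sub, xS_coeff_nat, xS_coeff_nat]
  dsimp only
  have hpow : ∀ x : ℤ, eta N x ^ N = 1 := fun x => by
    rw [eta, ← Complex.exp_nat_mul, Complex.exp_eq_one_iff]
    refine ⟨x, ?_⟩
    have hN : (N : ℂ) ≠ 0 := Nat.cast_ne_zero.2 (NeZero.ne N)
    rw [tpi]
    field_simp
  have hne1 : ∀ {x y : ℤ}, IsVec N (x, y) → (N : ℤ) ∣ x → eta N y ≠ 1 := fun hxy hx e =>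
    hxy ⟨hx, eta_eq_one.1 e⟩
  rcases Nat.eq_zero_or_pos a with rfl | ha0
  · rw [xCoeff, xCoeff, if_pos (by simp), add_sub_add_left_eq_sub]
    have hb1 := hne1 hv' (by simp)
    rcases Nat.eq_zero_or_pos c with rfl | hc0
    · have hd1 := hne1 hw' (by simp)
      rw [if_pos (by simp)]
      have hn1 : (1 : ℂ) - eta N b ≠ 0 := sub_ne_zero.2 (Ne.symm hb1)
      have hn2 : (1 : ℂ) - eta N d ≠ 0 := sub_ne_zero.2 (Ne.symm hd1)
      have e : eta N b / (1 - eta N b) ^ 2 - eta N d / (1 - eta N d) ^ 2 =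
          (eta N b - eta N d) * (1 - eta N b * eta N d) /
            ((1 - eta N b) ^ 2 * (1 - eta N d) ^ 2) := by
        field_simp
        ring
      rw [e, map_div₀, map_mul, map_mul, map_pow, map_pow, val_one_sub hp hℓ hN (hpow b) hb1,
        val_one_sub hp hℓ hN (hpow d) hd1, val_eta_sub hp hℓ hN, eta_mul_eta,
        val_one_sub hp hℓ hN (hpow _)]
      · simp
      · exact fun e => hvw'.2 ⟨by simp, eta_eq_one.1 e⟩
      · exact fun hd => hvw'.1 ⟨by simp, hd⟩
    · rw [if_neg fun hd => by have := Int.le_of_dvd (by omega) hd; omega, sub_zero, map_div₀,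
        map_pow, val_eta, val_one_sub hp hℓ hN (hpow b) hb1, one_pow, div_one]
  rw [xCoeff_low ha ha0 le_rfl, if_pos rfl, xCoeff_low hc ha0 hac]
  rcases Nat.eq_or_lt_of_le hac with rfl | hlt
  · rw [if_pos rfl]
    by_cases h2 : 2 * a = N
    · rw [if_pos h2, if_pos h2]
      have n0 : ∀ x : ℤ, eta N x ≠ 0 := fun x => Complex.exp_ne_zero _
      have e : eta N b + (eta N b)⁻¹ - (eta N d + (eta N d)⁻¹) =
          (eta N b - eta N d) * (1 - (eta N b)⁻¹ * (eta N d)⁻¹) := by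
        field_simp [n0 b, n0 d]
        ring1
      rw [e, map_mul, val_eta_sub hp hℓ hN, one_mul, ← mul_inv, eta_mul_eta, eta_inv,
        val_one_sub hp hℓ hN (hpow _)]
      · exact fun e => hvw'.2 ⟨⟨1, by simp; omega⟩, dvd_neg.1 (eta_eq_one.1 e)⟩
      · exact fun hd => hvw'.1 ⟨by simp, hd⟩
    · rw [if_neg h2, if_neg h2, add_zero, add_zero, val_eta_sub hp hℓ hN]
      exact fun hd => hvw'.1 ⟨by simp, hd⟩
  · rw [if_neg (show ¬2 * a = N by omega), if_neg (show ¬a = c by omega), add_zero, sub_zero,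
      val_eta]

end FA.WeightLevel

end
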